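import Mathlib
import Fermat.Prelude.Def_FLTPrelim_GaloisRep

/-!
S51 shared layer: translated invariants `B2 .. B8`, duplication formula on `x`-coordinates,
existence of points, Galois action on coordinates, rational descent.
-/

set_option autoImplicit false

namespace Fermat.Agent.S51Lib.Pts

open WeierstrassCurve

section Invariants

variable {R : Type*} [CommRing R] (W : WeierstrassCurve R)

/-- `b₂` of the curve translated by `x`. -/
def B2 (x : R) : R := W.b₂ + 12 * x
/-- `b₄` of the curve translated by `x`. -/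
def B4 (x : R) : R := W.b₄ + W.b₂ * x + 6 * x ^ 2
/-- `b₆` of the curve translated by `x` (`= ψ₂²`). -/
def B6 (x : R) : R := W.b₆ + 2 * W.b₄ * x + W.b₂ * x ^ 2 + 4 * x ^ 3
/-- `b₈` of the curve translated by `x` (`= Ψ₃`). -/
def B8 (x : R) : R := W.b₈ + 3 * W.b₆ * x + 3 * W.b₄ * x ^ 2 + W.b₂ * x ^ 3 + 3 * x ^ 4

theorem c4_eq (x : R) : W.c₄ = B2 W x ^ 2 - 24 * B4 W x := by
  simp only [B2, B4, WeierstrassCurve.c₄]; ring

theorem B_rel (x : R) : 4 * B8 W x = B2 W x * B6 W x - B4 W x ^ 2 := by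
  simp only [B2, B4, B6, B8]; linear_combination (1 + 0 * x) * W.b_relation

theorem Δ_eq (x : R) : W.Δ = -(B2 W x) ^ 2 * B8 W x - 8 * B4 W x ^ 3 - 27 * B6 W x ^ 2
    + 9 * B2 W x * B4 W x * B6 W x := by
  simp only [B2, B4, B6, B8, WeierstrassCurve.Δ, WeierstrassCurve.b₂, WeierstrassCurve.b₄,
    WeierstrassCurve.b₆, WeierstrassCurve.b₈]
  ring

theorem B6_add (x d : R) :
    B6 W (x + d) = B6 W x + 2 * B4 W x * d + B2 W x * d ^ 2 + 4 * d ^ 3 := by
  simp only [B2, B4, B6]; ring

theorem B8_add (x d : R) :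
    B8 W (x + d) = B8 W x + 3 * B6 W x * d + 3 * B4 W x * d ^ 2 + B2 W x * d ^ 3 + 3 * d ^ 4 := by
  simp only [B2, B4, B6, B8]; ring

variable {S : Type*} [CommRing S] (f : R →+* S)

theorem B2_map (x : R) : B2 (W.map f) (f x) = f (B2 W x) := by
  simp [B2, map_ofNat]
theorem B4_map (x : R) : B4 (W.map f) (f x) = f (B4 W x) := by
  simp [B4, map_ofNat]
theorem B6_map (x : R) : B6 (W.map f) (f x) = f (B6 W x) := by
  simp [B6, map_ofNat]
theorem B8_map (x : R) : B8 (W.map f) (f x) = f (B8 W x) := by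
  simp [B8, map_ofNat]

end Invariants

section Points

variable {K : Type*} [Field K] [DecidableEq K] (V : WeierstrassCurve K)

/-- On the curve, `B6 x = (2y + a₁x + a₃)²`. -/
theorem B6_eq_sq {x y : K} (h : V.toAffine.Equation x y) :
    B6 V x = (y - V.toAffine.negY x y) ^ 2 := by
  rw [Affine.equation_iff] at h
  simp only [B6, Affine.negY, WeierstrassCurve.b₂, WeierstrassCurve.b₄, WeierstrassCurve.b₆]
  linear_combination (-4) * h

/-- Duplication on `x`-coordinates: `x(2P) = x - B8(x)/B6(x)`. -/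
theorem two_nsmul_some {x y : K} (h : V.toAffine.Nonsingular x y) (h6 : B6 V x ≠ 0) :
    ∃ (y' : K) (h' : V.toAffine.Nonsingular (x - B8 V x / B6 V x) y'),
      (2 : ℕ) • (Affine.Point.some x y h) = Affine.Point.some _ y' h' := by
  have hy : y ≠ V.toAffine.negY x y := by
    intro hy
    apply h6
    rw [B6_eq_sq V h.1, sub_eq_zero.mpr hy]
    ring
  have key : ∀ x' : K, x' = V.toAffine.addX x x (V.toAffine.slope x x y y) →
      ∃ (y' : K) (h' : V.toAffine.Nonsingular x' y'),
        (2 : ℕ) • (Affine.Point.some x y h) = Affine.Point.some x' y' h' := by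
    rintro x' rfl
    exact ⟨_, _, by rw [two_nsmul, Affine.Point.add_self_of_Y_ne hy]⟩
  apply key
  have hne : y - V.toAffine.negY x y ≠ 0 := sub_ne_zero.mpr hy
  have heq := (Affine.equation_iff x y).mp h.1
  rw [Affine.slope_of_Y_ne rfl hy, B6_eq_sq V h.1]
  simp only [Affine.addX]
  field_simp
  simp only [B8, Affine.negY, WeierstrassCurve.b₂, WeierstrassCurve.b₄, WeierstrassCurve.b₆,
    WeierstrassCurve.b₈] at hne ⊢
  linear_combination (12 * x + V.a₁ ^ 2 + 4 * V.a₂) * heq

theorem two_nsmul_some_eq_zero_iff {x y : K} (h : V.toAffine.Nonsingular x y) :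
    (2 : ℕ) • (Affine.Point.some x y h) = 0 ↔ B6 V x = 0 := by
  constructor
  · intro h2
    by_contra h6
    obtain ⟨y', h', e⟩ := two_nsmul_some V h h6
    rw [e] at h2
    exact Affine.Point.some_ne_zero h' h2
  · intro h6
    have hy : y = V.toAffine.negY x y := by
      rw [B6_eq_sq V h.1] at h6
      exact sub_eq_zero.mp (pow_eq_zero_iff two_ne_zero |>.mp h6)
    rw [two_nsmul, Affine.Point.add_self_of_Y_eq hy]

/-- Points with the same `x` are equal or opposite. -/
theorem eq_or_eq_neg_of_x_eq {x y y' : K} (h : V.toAffine.Nonsingular x y)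
    (h' : V.toAffine.Nonsingular x y') :
    Affine.Point.some x y h = Affine.Point.some x y' h' ∨
      Affine.Point.some x y h = -Affine.Point.some x y' h' :=
  Affine.Point.X_eq_iff.mp rfl

/-- Over an algebraically closed field every `x` is the abscissa of a point. -/
theorem exists_point [IsAlgClosed K] (hΔ : V.Δ ≠ 0) (x : K) :
    ∃ (y : K), V.toAffine.Nonsingular x y := by
  obtain ⟨y, hy⟩ := IsAlgClosed.exists_root
    (Polynomial.C (1 : K) * Polynomial.X ^ 2 + Polynomial.C (V.a₁ * x + V.a₃) * Polynomial.X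
      + Polynomial.C (-(x ^ 3 + V.a₂ * x ^ 2 + V.a₄ * x + V.a₆)))
    (by rw [Polynomial.degree_quadratic one_ne_zero]; norm_num)
  refine ⟨y, (Affine.equation_iff_nonsingular_of_Δ_ne_zero hΔ).mp ?_⟩
  rw [Affine.equation_iff]
  simp only [Polynomial.IsRoot, Polynomial.eval_add, Polynomial.eval_mul, Polynomial.eval_C,
    Polynomial.eval_pow, Polynomial.eval_X] at hy
  linear_combination hy

end Points

section Galois

local notation "Qbar" => AlgebraicClosure ℚ

variable (E : WeierstrassCurve ℚ)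

/-- The Galois action on an affine point acts on the coordinates. -/
theorem smul_some (σ : Qbar ≃ₐ[ℚ] Qbar) {x y : Qbar} (h : (E⁄Qbar).toAffine.Nonsingular x y) :
    ∃ h' : (E⁄Qbar).toAffine.Nonsingular (σ x) (σ y),
      σ • (Affine.Point.some x y h : (E⁄Qbar).toAffine.Point) = Affine.Point.some (σ x) (σ y) h' :=
  ⟨_, rfl⟩

/-- `ℚ̄/ℚ` is Galois (for the algebra instance found by instance resolution). -/
theorem isGalois_Qbar : IsGalois ℚ Qbar := by
  have h : (AlgebraicClosure.instAlgebra ℚ : Algebra ℚ (AlgebraicClosure ℚ))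
      = DivisionRing.toRatAlgebra := Subsingleton.elim _ _
  have key : @IsGalois ℚ _ (AlgebraicClosure ℚ) _ (AlgebraicClosure.instAlgebra ℚ) :=
    @IsAlgClosure.isGalois ℚ (AlgebraicClosure ℚ) _ _ (AlgebraicClosure.instAlgebra ℚ) _ _
  rw [h] at key
  exact key

/-- Elements of `Qbar` fixed by the whole Galois group are rational. -/
theorem exists_rat_of_fixed (x : Qbar) (h : ∀ σ : Qbar ≃ₐ[ℚ] Qbar, σ x = x) :
    ∃ q : ℚ, algebraMap ℚ Qbar q = x := by
  have := isGalois_Qbar
  exact (InfiniteGalois.mem_range_algebraMap_iff_fixed x).mpr h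

/-- The translated invariants of `E⁄Qbar` commute with the Galois action. -/
theorem B6_smul (σ : Qbar ≃ₐ[ℚ] Qbar) (x : Qbar) : B6 (E⁄Qbar) (σ x) = σ (B6 (E⁄Qbar) x) := by
  simp [B6, WeierstrassCurve.baseChange, map_ofNat]

theorem B8_smul (σ : Qbar ≃ₐ[ℚ] Qbar) (x : Qbar) : B8 (E⁄Qbar) (σ x) = σ (B8 (E⁄Qbar) x) := by
  simp [B8, WeierstrassCurve.baseChange, map_ofNat]

end Galois

end Fermat.Agent.S51Lib.Pts
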