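import Mathlib

/-!
# S51, descent part: reduction of `E₀ : y² − 5xy = x(x−9)(x+1)` to `E₃ : v² = u(u−1)(u−81)`

With `X = 4x`, `Y = 8y − 20x` the curve `E₀` becomes `Y² = X(X+9)(X−16)`, and the 2-isogeny
`u = Y²/(X−16)²`, `v = Y(400 − (X−16)²)/(X−16)²` maps it to `E₃`.  If `E₃` has no rational point
with `v ≠ 0`, the rational points of `E₀` have `x ∈ {0, −1, 9, 4, −9/4}`.
-/

set_option autoImplicit false

namespace Fermat.Agent.S51Lib.DescentStep0

/-- the curve `Y² = X(X+9)(X−16)`, given the points of `v² = u(u−1)(u−81)` -/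
theorem points_E1_of_E3 (H : ∀ u v : ℚ, v ^ 2 = u * (u - 1) * (u - 81) → v = 0)
    (X Y : ℚ) (h : Y ^ 2 = X * (X + 9) * (X - 16)) :
    X = 0 ∨ X = -4 ∨ X = 36 ∨ X = 16 ∨ X = -9 := by
  by_cases h16 : X = 16
  · exact Or.inr (Or.inr (Or.inr (Or.inl h16)))
  have hs : X - 16 ≠ 0 := sub_ne_zero.2 h16
  have hv := H (Y ^ 2 / (X - 16) ^ 2) (Y * (400 - (X - 16) ^ 2) / (X - 16) ^ 2) (by
    field_simp
    rw [h]
    ring)
  rw [div_eq_zero_iff] at hv
  rcases hv with hv | hv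
  · rcases mul_eq_zero.1 hv with hY | hX
    · rw [hY] at h
      have h0 : X * (X + 9) * (X - 16) = 0 := by rw [← h]; ring
      rcases mul_eq_zero.1 h0 with h1 | h1
      · rcases mul_eq_zero.1 h1 with h2 | h2
        · exact Or.inl h2
        · exact Or.inr (Or.inr (Or.inr (Or.inr (by linarith))))
      · exact absurd h1 hs
    · have h0 : (X - 36) * (X + 4) = 0 := by linear_combination -hX
      rcases mul_eq_zero.1 h0 with h1 | h1
      · exact Or.inr (Or.inr (Or.inl (by linarith)))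
      · exact Or.inr (Or.inl (by linarith))
  · exact absurd ((pow_eq_zero_iff two_ne_zero).1 hv) hs

/-- the curve `E₀ : y² − 5xy = x(x−9)(x+1)`, given the points of `v² = u(u−1)(u−81)` -/
theorem points_E0_of_E3 (H : ∀ u v : ℚ, v ^ 2 = u * (u - 1) * (u - 81) → v = 0)
    (x y : ℚ) (h : y ^ 2 - 5 * x * y = x * (x - 9) * (x + 1)) :
    x = 0 ∨ x = -1 ∨ x = 9 ∨ x = 4 ∨ x = -9 / 4 := by
  have h1 : (8 * y - 20 * x) ^ 2 = (4 * x) * (4 * x + 9) * (4 * x - 16) := by
    linear_combination 64 * h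
  rcases points_E1_of_E3 H (4 * x) (8 * y - 20 * x) h1 with h2 | h2 | h2 | h2 | h2
  · exact Or.inl (by linarith)
  · exact Or.inr (Or.inl (by linarith))
  · exact Or.inr (Or.inr (Or.inl (by linarith)))
  · exact Or.inr (Or.inr (Or.inr (Or.inl (by linarith))))
  · exact Or.inr (Or.inr (Or.inr (Or.inr (by linarith))))

/-- helper9's variant: `w² = λ(9λ − 4)(4λ + 1)` with `λ ≠ 0` -/
theorem lam_cases_of_E3 (H : ∀ u v : ℚ, v ^ 2 = u * (u - 1) * (u - 81) → v = 0)
    (l w : ℚ) (hl : l ≠ 0) (h : w ^ 2 = l * (9 * l - 4) * (4 * l + 1)) :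
    l = 1 ∨ l = -1 / 4 ∨ l = 4 / 9 ∨ l = -1 / 9 := by
  have h1 : (36 * w) ^ 2 = (36 * l) * (36 * l + 9) * (36 * l - 16) := by
    linear_combination 1296 * h
  rcases points_E1_of_E3 H (36 * l) (36 * w) h1 with h2 | h2 | h2 | h2 | h2
  · exact absurd (by linarith : l = 0) hl
  · exact Or.inr (Or.inr (Or.inr (by linarith)))
  · exact Or.inl (by linarith)
  · exact Or.inr (Or.inr (Or.inl (by linarith)))
  · exact Or.inr (Or.inl (by linarith))

end Fermat.Agent.S51Lib.DescentStep0
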