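import Fermat.Agent.S51Lib.DescentCore
import Fermat.Agent.S51Lib.DescentStep0

set_option autoImplicit false

namespace Fermat.Agent.S51Lib.Descent

/-- The rational points of `y² - 5xy = x(x - 9)(x + 1)` (a model of `X₀(15)`). -/
theorem points_E0 (x y : ℚ) (h : y ^ 2 - 5 * x * y = x * (x - 9) * (x + 1)) :
    x = 0 ∨ x = -1 ∨ x = 9 ∨ x = 4 ∨ x = -9 / 4 :=
  DescentStep0.points_E0_of_E3 DescentCore.E3_points x y h

end Fermat.Agent.S51Lib.Descent
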