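import Mathlib
import Fermat.Agent.S51Lib.Descent

/-!
S51, part C: rational points of `X₀(15)` in the `(k, w)`-model
`(k+27)(k+3)³ w = (w²+10w+5)³ k` with `k w ≠ 0`.

With `z = (w²+10w+5)/(k+3)` the point lies on
`F(w,z) = w³+(10-z³)w²+(5+24z-10z³)w+z³(3z-5) = 0`, and
`x = 3(z³+3z²-6z-3-w)/(w²+(10+z-z³)w-z⁴-10z³+27z+9)`, `y = (z+3)x+3` is a rational point of
`y² - 5xy = x(x-9)(x+1)`, whose rational points are known (`Descent.points_E0`).
-/

set_option autoImplicit false

namespace Fermat.Agent.S51Lib.Modular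

/-- `n` is not the square of a rational number when it is not a perfect square. -/
theorem not_sq_of_not_isSquare (n : ℕ) (hn : ¬ IsSquare n) (r : ℚ) : r ^ 2 ≠ (n : ℚ) := by
  intro h
  apply hn
  have : IsSquare ((n : ℕ) : ℚ) := ⟨r, by rw [← h]; ring⟩
  exact Rat.isSquare_natCast_iff.mp this

theorem not_isSquare_between (n a : ℕ) (h1 : a * a < n) (h2 : n < (a + 1) * (a + 1)) :
    ¬ IsSquare n := by
  rintro ⟨r, hr⟩
  rcases Nat.lt_or_ge a r with h | h
  · have : (a + 1) * (a + 1) ≤ r * r := Nat.mul_le_mul h h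
    omega
  · have : r * r ≤ a * a := Nat.mul_le_mul h h
    omega

theorem not_sq_5 (r : ℚ) : r ^ 2 ≠ 5 := by
  have := not_sq_of_not_isSquare 5 (not_isSquare_between 5 2 (by norm_num) (by norm_num)) r
  exact_mod_cast this

theorem not_sq_15 (r : ℚ) : r ^ 2 ≠ 15 := by
  have := not_sq_of_not_isSquare 15 (not_isSquare_between 15 3 (by norm_num) (by norm_num)) r
  exact_mod_cast this

theorem not_sq_15125 (r : ℚ) : r ^ 2 ≠ 15125 := by
  have := not_sq_of_not_isSquare 15125
    (not_isSquare_between 15125 122 (by norm_num) (by norm_num)) r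
  exact_mod_cast this

theorem not_sq_121000 (r : ℚ) : r ^ 2 ≠ 121000 := by
  have := not_sq_of_not_isSquare 121000
    (not_isSquare_between 121000 347 (by norm_num) (by norm_num)) r
  exact_mod_cast this

theorem not_sq_24805 (r : ℚ) : r ^ 2 ≠ 24805 := by
  have := not_sq_of_not_isSquare 24805
    (not_isSquare_between 24805 157 (by norm_num) (by norm_num)) r
  exact_mod_cast this

/-- `w² + 10 w + 5` has no rational root. -/
theorem quad_ne (w : ℚ) : w ^ 2 + 10 * w + 5 ≠ 0 := by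
  intro h
  apply not_sq_5 ((w + 5) / 2)
  linear_combination (1 / 4 : ℚ) * h

/-- The curve `F(w,z) = 0`. -/
def F (w z : ℚ) : ℚ :=
  w ^ 3 + (10 - z ^ 3) * w ^ 2 + (5 + 24 * z - 10 * z ^ 3) * w + z ^ 3 * (3 * z - 5)

/-- Denominator of the abscissa. -/
def Den (w z : ℚ) : ℚ := w ^ 2 + (10 + z - z ^ 3) * w - z ^ 4 - 10 * z ^ 3 + 27 * z + 9

/-- Numerator of the abscissa. -/
def Num (w z : ℚ) : ℚ := 3 * (z ^ 3 + 3 * z ^ 2 - 6 * z - 3 - w)

theorem Den_ne {w z : ℚ} (hF : F w z = 0) : Den w z ≠ 0 := by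
  intro hD
  unfold F at hF
  unfold Den at hD
  have hr1 : (z ^ 2 + 7 * z - 4) * w + (-z ^ 5 - 7 * z ^ 4 - 5 * z ^ 3 + 27 * z ^ 2 + 9 * z) = 0 := by
    linear_combination hF - (w - z) * hD
  have hres : 9 * (z ^ 4 + 2 * z ^ 3 - 10 * z ^ 2 + 4 * z + 4) ^ 2 = 0 := by
    linear_combination (z ^ 2 + 7 * z - 4) ^ 2 * hD
      - ((z ^ 2 + 7 * z - 4) * w - (-z ^ 5 - 7 * z ^ 4 - 5 * z ^ 3 + 27 * z ^ 2 + 9 * z)
          + (10 + z - z ^ 3) * (z ^ 2 + 7 * z - 4)) * hr1
  have hq4 : z ^ 4 + 2 * z ^ 3 - 10 * z ^ 2 + 4 * z + 4 = 0 := by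
    have := mul_eq_zero.mp hres
    rcases this with h9 | h
    · norm_num at h9
    · exact pow_eq_zero_iff (by norm_num) |>.mp h
  have hz0 : z ≠ 0 := by
    rintro rfl
    norm_num at hq4
  apply not_sq_15 ((z ^ 2 + z + 2) / z)
  field_simp
  linear_combination hq4

/-- The abscissa `x = Num/Den` satisfies the cubic `x³ - (z²+z+2)x² - 6(z+2)x - 9 = 0`. -/
theorem cubic_eq {w z : ℚ} (hF : F w z = 0) :
    (Num w z / Den w z) ^ 3 - (z ^ 2 + z + 2) * (Num w z / Den w z) ^ 2
      - 6 * (z + 2) * (Num w z / Den w z) - 9 = 0 := by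
  have hD := Den_ne hF
  have key : Num w z ^ 3 - (z ^ 2 + z + 2) * Num w z ^ 2 * Den w z
      - 6 * (z + 2) * Num w z * Den w z ^ 2 - 9 * Den w z ^ 3 = 0 := by
    unfold F at hF
    unfold Num Den
    linear_combination (-9 * w ^ 3 + 18 * w ^ 2 * z ^ 3 - 9 * w ^ 2 * z - 144 * w ^ 2
      - 9 * w * z ^ 6 + 18 * w * z ^ 4 + 234 * w * z ^ 3 - 270 * w * z - 648 * w - 9 * z ^ 7
      - 90 * z ^ 6 + 270 * z ^ 4 + 567 * z ^ 3 + 243 * z ^ 2 - 1539 * z - 567) * hF
  field_simp
  linear_combination key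

/-- The possible values of `z`. -/
theorem z_mem {w z : ℚ} (hF : F w z = 0) :
    z = 0 ∨ z = 5 ∨ z = -10 / 3 ∨ z = 5 / 3 ∨ z = -5 / 4 ∨ z = 5 / 6 := by
  have hc := cubic_eq hF
  set x := Num w z / Den w z with hx
  have hE : ((z + 3) * x + 3) ^ 2 - 5 * x * ((z + 3) * x + 3) = x * (x - 9) * (x + 1) := by
    linear_combination -hc
  rcases Descent.points_E0 x _ hE with h0 | h1 | h9 | h4 | h94
  · rw [h0] at hc; norm_num at hc
  · rw [h1] at hc
    have : z * (z - 5) = 0 := by linear_combination -hc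
    rcases mul_eq_zero.mp this with h | h
    · exact Or.inl h
    · exact Or.inr (Or.inl (by linarith))
  · rw [h9] at hc
    have : (3 * z - 5) * (3 * z + 10) = 0 := by linear_combination (-1 / 9 : ℚ) * hc
    rcases mul_eq_zero.mp this with h | h
    · exact Or.inr (Or.inr (Or.inr (Or.inl (by linarith))))
    · exact Or.inr (Or.inr (Or.inl (by linarith)))
  · rw [h4] at hc
    have : (4 * z + 5) ^ 2 = 0 := by linear_combination -hc
    have := pow_eq_zero_iff (two_ne_zero) |>.mp this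
    exact Or.inr (Or.inr (Or.inr (Or.inr (Or.inl (by linarith)))))
  · rw [h94] at hc
    have : (6 * z - 5) ^ 2 = 0 := by linear_combination (-64 / 9 : ℚ) * hc
    have := pow_eq_zero_iff (two_ne_zero) |>.mp this
    exact Or.inr (Or.inr (Or.inr (Or.inr (Or.inr (by linarith)))))

/-- The possible values of `w` on `F(w,z) = 0` with `w ≠ 0`. -/
theorem w_mem_of_F {w z : ℚ} (hw : w ≠ 0) (hF : F w z = 0) :
    w = -10 ∨ w = -40 ∨ w = -25 / 2 ∨ w = -25 / 8 := by
  rcases z_mem hF with h | h | h | h | h | h <;> subst h <;> unfold F at hF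
  · -- z = 0 : w (w² + 10 w + 5) = 0
    exfalso
    have : w * (w ^ 2 + 10 * w + 5) = 0 := by linear_combination hF
    rcases mul_eq_zero.mp this with h | h
    · exact hw h
    · exact quad_ne w h
  · -- z = 5 : (w + 10)(w² - 125 w + 125) = 0
    have : (w + 10) * (w ^ 2 - 125 * w + 125) = 0 := by linear_combination hF
    rcases mul_eq_zero.mp this with h | h
    · exact Or.inl (by linarith)
    · exfalso
      apply not_sq_15125 (2 * w - 125)
      linear_combination 4 * h
  · -- z = -10/3 : (w + 40)(27 w² + 190 w + 375) = 0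
    have : (w + 40) * (27 * w ^ 2 + 190 * w + 375) = 0 := by linear_combination 27 * hF
    rcases mul_eq_zero.mp this with h | h
    · exact Or.inr (Or.inl (by linarith))
    · exfalso
      nlinarith [sq_nonneg (54 * w + 190)]
  · -- z = 5/3 : w (27 w² + 145 w - 35) = 0
    exfalso
    have : w * (27 * w ^ 2 + 145 * w - 35) = 0 := by linear_combination 27 * hF
    rcases mul_eq_zero.mp this with h | h
    · exact hw h
    · apply not_sq_24805 (54 * w + 145)
      linear_combination 108 * h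
  · -- z = -5/4 : (2 w + 25)(128 w² - 70 w + 175) = 0
    have : (2 * w + 25) * (128 * w ^ 2 - 70 * w + 175) = 0 := by linear_combination 256 * hF
    rcases mul_eq_zero.mp this with h | h
    · exact Or.inr (Or.inr (Or.inl (by linarith)))
    · exfalso
      nlinarith [sq_nonneg (256 * w - 70)]
  · -- z = 5/6 : (8 w + 25)(54 w² + 340 w - 25) = 0
    have : (8 * w + 25) * (54 * w ^ 2 + 340 * w - 25) = 0 := by linear_combination 432 * hF
    rcases mul_eq_zero.mp this with h | h
    · exact Or.inr (Or.inr (Or.inr (by linarith)))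
    · exfalso
      apply not_sq_121000 (108 * w + 340)
      linear_combination 216 * h

/-- Rational points of `X₀(15)` in the `(k,w)`-model. -/
theorem w_mem (k w : ℚ) (hk : k ≠ 0) (hw : w ≠ 0)
    (h : (k + 27) * (k + 3) ^ 3 * w = (w ^ 2 + 10 * w + 5) ^ 3 * k) :
    w = -10 ∨ w = -40 ∨ w = -25 / 2 ∨ w = -25 / 8 := by
  have hk3 : k + 3 ≠ 0 := by
    intro h3
    rw [h3] at h
    have h' : (w ^ 2 + 10 * w + 5) ^ 3 * k = 0 := by rw [← h]; ring
    rcases mul_eq_zero.mp h' with h'' | h''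
    · exact quad_ne w (pow_eq_zero_iff (by norm_num) |>.mp h'')
    · exact hk h''
  set z := (w ^ 2 + 10 * w + 5) / (k + 3) with hz
  have hz' : z * (k + 3) = w ^ 2 + 10 * w + 5 := by
    rw [hz]; field_simp
  have h1 : (k + 27) * w = z ^ 3 * k := by
    have h3 : (k + 3) ^ 3 ≠ 0 := pow_ne_zero 3 hk3
    apply mul_left_cancel₀ h3
    have : (w ^ 2 + 10 * w + 5) ^ 3 = z ^ 3 * (k + 3) ^ 3 := by rw [← hz']; ring
    rw [this] at h
    linear_combination h
  have hF : F w z = 0 := by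
    unfold F
    linear_combination z * h1 - (w - z ^ 3) * hz'
  exact w_mem_of_F hw hF

end Fermat.Agent.S51Lib.Modular
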