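import Mathlib

/-!
S51: the two pure field-algebra lemmas (parametrisations of `X₀(3)` and `X₀(5)` in terms of
the translated invariants at a point of order 3, resp. 5).
-/

set_option autoImplicit false

namespace Fermat.Agent.S51Lib.Alg

variable {K : Type*} [Field K]

/-- `X₀(3)`: a root of `Ψ₃` (`B8 = 0`) gives `k` with `c₄³ k = Δ (k+27)(k+3)³`. -/
theorem exists_k {B2 B4 B6 c4 D : K} (hrel : B2 * B6 = B4 ^ 2)
    (hc4 : c4 = B2 ^ 2 - 24 * B4)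
    (hD : D = -8 * B4 ^ 3 - 27 * B6 ^ 2 + 9 * B2 * B4 * B6) (hD0 : D ≠ 0) :
    ∃ k : K, k ≠ 0 ∧ c4 ^ 3 * k = D * ((k + 27) * (k + 3) ^ 3) ∧
      (B4 ≠ 0 → k = B2 ^ 2 / B4 - 27) ∧ (B4 = 0 → k = -27) := by
  by_cases h4 : B4 = 0
  · -- then B2 = 0 and c4 = 0
    have h6 : B6 ≠ 0 := by
      rintro rfl
      apply hD0
      rw [hD, h4]; ring
    have h2 : B2 = 0 := by
      rw [h4] at hrel
      have : B2 * B6 = 0 := by rw [hrel]; ring
      exact (mul_eq_zero.mp this).resolve_right h6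
    have h27 : (27 : K) ≠ 0 := by
      intro h
      apply hD0
      rw [hD, h4, h2]
      linear_combination (-B6 ^ 2) * h
    refine ⟨-27, neg_ne_zero.mpr h27, ?_, fun h => absurd h4 h, fun _ => rfl⟩
    rw [hc4, h2, h4]; ring
  · have h2 : B2 ≠ 0 := by
      rintro rfl
      apply h4
      have : B4 ^ 2 = 0 := by rw [← hrel]; ring
      exact pow_eq_zero_iff (by norm_num) |>.mp this
    have h6 : B6 = B4 ^ 2 / B2 := by
      field_simp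
      linear_combination hrel
    have hDf : D = B4 ^ 3 * (B2 ^ 2 - 27 * B4) / B2 ^ 2 := by
      rw [hD, h6]; field_simp; ring
    have hne : B2 ^ 2 - 27 * B4 ≠ 0 := by
      intro h
      apply hD0
      rw [hDf, h]; simp
    refine ⟨B2 ^ 2 / B4 - 27, ?_, ?_, fun _ => rfl, fun h => absurd h h4⟩
    · intro h
      apply hne
      field_simp at h
      linear_combination h
    · rw [hc4, hDf]
      field_simp
      ring

/-- `X₀(5)`: the relations of a point of order 5 (`B8 = -d B6`, `d³ - d B4 - B6 = 0`) give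
`w = t - 1/t - 11`, `t = d³/B6`, with `c₄³ w = Δ (w²+10w+5)³`; moreover the translated `B6` at the
double point is `d⁶/B6`, i.e. `t(2P) = -1/t(P)`. -/
theorem exists_w {B2 B4 B6 B8 d c4 D : K} (hrel : 4 * B8 = B2 * B6 - B4 ^ 2)
    (h8 : B8 = -d * B6) (h5 : d ^ 3 - d * B4 - B6 = 0) (h6 : B6 ≠ 0) (hd : d ≠ 0)
    (hc4 : c4 = B2 ^ 2 - 24 * B4)
    (hD : D = -B2 ^ 2 * B8 - 8 * B4 ^ 3 - 27 * B6 ^ 2 + 9 * B2 * B4 * B6) (hD0 : D ≠ 0) :
    (B6 + 2 * B4 * d + B2 * d ^ 2 + 4 * d ^ 3 = d ^ 6 / B6) ∧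
    (d ^ 3 / B6 + (-d) ^ 3 / (B6 + 2 * B4 * d + B2 * d ^ 2 + 4 * d ^ 3) - 11 ≠ 0) ∧
    (let w := d ^ 3 / B6 + (-d) ^ 3 / (B6 + 2 * B4 * d + B2 * d ^ 2 + 4 * d ^ 3) - 11
     c4 ^ 3 * w = D * (w ^ 2 + 10 * w + 5) ^ 3) := by
  -- everything in terms of `d` and `B6`
  have e4 : B4 = (d ^ 3 - B6) / d := by
    field_simp
    linear_combination -h5
  have e2 : B2 = (-4 * d * B6 + ((d ^ 3 - B6) / d) ^ 2) / B6 := by
    field_simp
    rw [h8, e4] at hrel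
    field_simp at hrel
    linear_combination -hrel
  have e6' : B6 + 2 * B4 * d + B2 * d ^ 2 + 4 * d ^ 3 = d ^ 6 / B6 := by
    rw [e2, e4]; field_simp; ring
  have eD : D = d ^ 3 * (d ^ 6 - 11 * d ^ 3 * B6 - B6 ^ 2) / B6 := by
    rw [hD, h8, e2, e4]; field_simp; ring
  have hne : d ^ 6 - 11 * d ^ 3 * B6 - B6 ^ 2 ≠ 0 := by
    intro h
    apply hD0
    rw [eD, h]; simp
  have ew : d ^ 3 / B6 + (-d) ^ 3 / (B6 + 2 * B4 * d + B2 * d ^ 2 + 4 * d ^ 3) - 11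
      = (d ^ 6 - 11 * d ^ 3 * B6 - B6 ^ 2) / (d ^ 3 * B6) := by
    rw [e6']; field_simp; ring
  refine ⟨e6', ?_, ?_⟩
  · rw [ew]
    exact div_ne_zero hne (mul_ne_zero (pow_ne_zero 3 hd) h6)
  · show c4 ^ 3 * (d ^ 3 / B6 + (-d) ^ 3 / (B6 + 2 * B4 * d + B2 * d ^ 2 + 4 * d ^ 3) - 11)
      = D * ((d ^ 3 / B6 + (-d) ^ 3 / (B6 + 2 * B4 * d + B2 * d ^ 2 + 4 * d ^ 3) - 11) ^ 2
        + 10 * (d ^ 3 / B6 + (-d) ^ 3 / (B6 + 2 * B4 * d + B2 * d ^ 2 + 4 * d ^ 3) - 11) + 5) ^ 3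
    rw [ew, eD, hc4, e2, e4]
    field_simp
    ring

end Fermat.Agent.S51Lib.Alg
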