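import Mathlib
import Fermat.Prelude.Def_FLTPrelim_GaloisRep

/-!
S51: extraction of a Galois-stable line from reducibility (generic prime `p`), given that the
`p`-torsion is nontrivial and has at most `p ^ 2` elements.
-/

set_option autoImplicit false

namespace Fermat.Agent.S51Lib.Line

open WeierstrassCurve

local notation "Qbar" => AlgebraicClosure ℚ

/-- If `E[p]` is nontrivial, has at most `p²` elements and is reducible, there is a nonzero
`p`-torsion point `P` whose line `⟨P⟩` is Galois-stable. -/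
theorem exists_stable_line (E : WeierstrassCurve ℚ) (p : ℕ) [Fact p.Prime]
    (hnt : ∃ P : (E⁄Qbar).toAffine.Point, P ≠ 0 ∧ p • P = 0)
    (hcard : ∀ s : Finset (E⁄Qbar).toAffine.Point, (∀ P ∈ s, p • P = 0) → s.card ≤ p ^ 2)
    (hirr : ¬ Affine.Point.GaloisRepIsIrreducible (K := Qbar) ℚ E p) :
    ∃ P : (E⁄Qbar).toAffine.Point, P ≠ 0 ∧ p • P = 0 ∧
      ∀ σ : Qbar ≃ₐ[ℚ] Qbar, ∃ c : ℕ, σ • P = c • P := by
  classical
  have hp : p.Prime := Fact.out
  -- the torsion module
  set T := Submodule.torsionBy ℤ (E⁄Qbar).toAffine.Point p with hT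
  have hmem : ∀ P : (E⁄Qbar).toAffine.Point, P ∈ T ↔ p • P = 0 := by
    intro P
    rw [hT, Submodule.mem_torsionBy_iff, Nat.cast_smul_eq_nsmul]
  -- nontriviality
  have hntT : Nontrivial T := by
    obtain ⟨P, hP0, hP⟩ := hnt
    refine ⟨⟨⟨P, (hmem P).mpr hP⟩, 0, ?_⟩⟩
    intro h
    exact hP0 (congrArg Subtype.val h)
  -- finiteness
  have hfinset : (T : Set (E⁄Qbar).toAffine.Point).Finite := by
    by_contra hinf
    obtain ⟨t, ht, htc⟩ := Set.Infinite.exists_subset_card_eq hinf (p ^ 2 + 1)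
    have := hcard t (fun P hP => (hmem P).mp (ht hP))
    omega
  have hfin : Finite T := hfinset
  have hcardT : Nat.card T ≤ p ^ 2 := by
    have h1 : Nat.card T = hfinset.toFinset.card := by
      rw [← Set.ncard_eq_toFinset_card (T : Set (E⁄Qbar).toAffine.Point) hfinset]
      rfl
    rw [h1]
    exact hcard _ (fun P hP => (hmem P).mp (by simpa using hP))
  -- dimension at most two
  have hrank : Module.finrank (ZMod p) T ≤ 2 := by
    have h1 : Nat.card T = p ^ Module.finrank (ZMod p) T := by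
      have := Module.natCard_eq_pow_finrank (K := ZMod p) (V := T)
      rwa [Nat.card_zmod] at this
    rw [h1] at hcardT
    exact (Nat.pow_le_pow_iff_right hp.one_lt).mp hcardT
  -- a proper nonzero stable submodule
  have hex : ∃ N : Submodule (ZMod p) T,
      Affine.Point.IsGaloisStable (K := Qbar) ℚ N ∧ N ≠ ⊥ ∧ N ≠ ⊤ := by
    by_contra hno
    apply hirr
    refine ⟨hntT, fun N hN => ?_⟩
    by_contra hN'
    push Not at hN'
    exact hno ⟨N, hN, hN'.1, hN'.2⟩
  obtain ⟨N, hNst, hNbot, hNtop⟩ := hex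
  have hNlt : Module.finrank (ZMod p) N < Module.finrank (ZMod p) T :=
    Submodule.finrank_lt hNtop
  have hNpos : 0 < Module.finrank (ZMod p) N := by
    rw [Module.finrank_pos_iff]
    exact (Submodule.nontrivial_iff_ne_bot).mpr hNbot
  have hN1 : Module.finrank (ZMod p) N = 1 := by omega
  obtain ⟨v, hv0, hv⟩ := finrank_eq_one_iff'.mp hN1
  refine ⟨((v : T) : (E⁄Qbar).toAffine.Point), ?_, (hmem _).mp (v : T).2, ?_⟩
  · intro h
    apply hv0
    apply Subtype.ext
    apply Subtype.ext
    simpa using h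
  · intro σ
    have hσ : σ • (v : T) ∈ N := hNst σ _ v.2
    obtain ⟨c, hc⟩ := hv ⟨σ • (v : T), hσ⟩
    refine ⟨c.val, ?_⟩
    have h1 : (c • (v : T) : T) = σ • (v : T) := by
      have := congrArg Subtype.val hc
      simpa using this
    have h2 : (c • (v : T) : T) = c.val • (v : T) := by
      conv_lhs => rw [← ZMod.natCast_zmod_val c]
      exact Nat.cast_smul_eq_nsmul (ZMod p) c.val (v : T)
    have h3 : ((σ • (v : T) : T) : (E⁄Qbar).toAffine.Point)
        = σ • ((v : T) : (E⁄Qbar).toAffine.Point) := rfl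
    rw [← h3, ← h1, h2]
    simp

end Fermat.Agent.S51Lib.Line
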