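import Mathlib
import Fermat.Prelude.Def_FLTPrelim_GaloisRep
import Fermat.Prelude.Def_FLTPrelim_ModularRep
import Fermat.Agent.S51Lib.Pts
import Fermat.Agent.S51Lib.Line
import Fermat.Agent.S51Lib.AlgKW

/-!
S51, part A3: a reducible mod-3 representation gives a rational root of the 3-division
polynomial, hence a rational point `k` on the `X₀(3)`-relation `c₄³ k = Δ (k+27)(k+3)³`.

Reusable general pieces (also for the 5-torsion file):
* `eq_or_eq_neg_of_x_eq'` : same abscissa, given by an equation;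
* `absc`, `card_le_of_roots` : a finite set of nonzero points whose abscissae are roots of a
  nonzero polynomial `p` has at most `2 * p.natDegree` elements;
* `smul_x_eq_of_smul_eq_nsmul` : a Galois element mapping `P` into `{P, -P}` fixes `x(P)`.
-/

set_option autoImplicit false

namespace Fermat.Agent.S51Lib.Tors3

open WeierstrassCurve Polynomial

local notation "Qbar" => AlgebraicClosure ℚ

section General

variable {K : Type*} [Field K] [DecidableEq K] (V : WeierstrassCurve K)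

omit [DecidableEq K] in
/-- Points with the same abscissa (given by an equation) are equal or opposite. -/
theorem eq_or_eq_neg_of_x_eq' {x₁ y₁ x₂ y₂ : K} (h₁ : V.toAffine.Nonsingular x₁ y₁)
    (h₂ : V.toAffine.Nonsingular x₂ y₂) (hx : x₁ = x₂) :
    Affine.Point.some x₁ y₁ h₁ = Affine.Point.some x₂ y₂ h₂ ∨
      Affine.Point.some x₁ y₁ h₁ = -Affine.Point.some x₂ y₂ h₂ :=
  Affine.Point.X_eq_iff.mp hx

/-- The abscissa of a point (junk value `0` at the point at infinity). -/
def absc : V.toAffine.Point → K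
  | .zero => 0
  | .some x _ _ => x

omit [DecidableEq K] in
@[simp] theorem absc_some {x y : K} (h : V.toAffine.Nonsingular x y) :
    absc V (Affine.Point.some x y h) = x := rfl

omit [DecidableEq K] in
/-- Nonzero points with the same abscissa are equal or opposite. -/
theorem eq_or_eq_neg_of_absc_eq {P Q : V.toAffine.Point} (hP : P ≠ 0) (hQ : Q ≠ 0)
    (h : absc V P = absc V Q) : P = Q ∨ P = -Q := by
  rcases P with _ | ⟨x₁, y₁, h₁⟩
  · exact absurd rfl hP
  rcases Q with _ | ⟨x₂, y₂, h₂⟩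
  · exact absurd rfl hQ
  exact eq_or_eq_neg_of_x_eq' V h₁ h₂ h

/-- A finite set of nonzero points whose abscissae are roots of a nonzero polynomial `p` has at
most `2 * p.natDegree` elements. -/
theorem card_le_of_roots (p : K[X]) (hp : p ≠ 0) (s : Finset V.toAffine.Point)
    (hs : ∀ P ∈ s, P ≠ 0 ∧ p.eval (absc V P) = 0) : s.card ≤ 2 * p.natDegree := by
  classical
  have hfib : ∀ a ∈ s.image (absc V), (s.filter fun P => absc V P = a).card ≤ 2 := by
    intro a _
    rcases (s.filter fun P => absc V P = a).eq_empty_or_nonempty with he | ⟨P₀, hP₀⟩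
    · rw [he]; simp
    · rw [Finset.mem_filter] at hP₀
      have hsub : (s.filter fun P => absc V P = a) ⊆ {P₀, -P₀} := by
        intro Q hQ
        rw [Finset.mem_filter] at hQ
        rw [Finset.mem_insert, Finset.mem_singleton]
        exact eq_or_eq_neg_of_absc_eq V (hs Q hQ.1).1 (hs P₀ hP₀.1).1 (hQ.2.trans hP₀.2.symm)
      exact (Finset.card_le_card hsub).trans Finset.card_le_two
  have himg : s.image (absc V) ⊆ p.roots.toFinset := by
    intro a ha
    rw [Finset.mem_image] at ha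
    obtain ⟨P, hP, rfl⟩ := ha
    rw [Multiset.mem_toFinset, Polynomial.mem_roots hp]
    exact (hs P hP).2
  calc s.card ≤ 2 * (s.image (absc V)).card := Finset.card_le_mul_card_image s 2 hfib
    _ ≤ 2 * p.roots.toFinset.card := Nat.mul_le_mul_left 2 (Finset.card_le_card himg)
    _ ≤ 2 * Multiset.card p.roots := Nat.mul_le_mul_left 2 (Multiset.toFinset_card_le _)
    _ ≤ 2 * p.natDegree := Nat.mul_le_mul_left 2 (Polynomial.card_roots' p)

omit [DecidableEq K] in
/-- The value of the `3`-division polynomial is `B8`. -/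
theorem eval_Ψ₃ (x : K) : V.Ψ₃.eval x = Pts.B8 V x := by
  simp only [WeierstrassCurve.Ψ₃, Pts.B8, eval_add, eval_mul, eval_pow, eval_X, eval_C,
    eval_ofNat]
  ring

/-- The abscissa of a nonzero `3`-torsion point is a root of `B8 = Ψ₃`. -/
theorem B8_eq_zero_of_three_nsmul {x y : K} (h : V.toAffine.Nonsingular x y)
    (h3 : (3 : ℕ) • (Affine.Point.some x y h) = 0) : Pts.B8 V x = 0 := by
  have h2 : (2 : ℕ) • (Affine.Point.some x y h) = -Affine.Point.some x y h := by
    have h3' : (2 : ℕ) • (Affine.Point.some x y h) + Affine.Point.some x y h = 0 := by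
      rw [← succ_nsmul]; exact h3
    exact eq_neg_of_add_eq_zero_left h3'
  have h6 : Pts.B6 V x ≠ 0 := by
    intro h6
    have h0 := (Pts.two_nsmul_some_eq_zero_iff V h).mpr h6
    rw [h0] at h2
    exact Affine.Point.some_ne_zero h (neg_eq_zero.mp h2.symm)
  obtain ⟨y', h', hdbl⟩ := Pts.two_nsmul_some V h h6
  rw [hdbl, Affine.Point.neg_some] at h2
  have hx : x - Pts.B8 V x / Pts.B6 V x = x := (Affine.Point.some.inj h2).1
  have hdiv : Pts.B8 V x / Pts.B6 V x = 0 := by linear_combination -hx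
  rcases div_eq_zero_iff.mp hdiv with h8 | h6'
  · exact h8
  · exact absurd h6' h6

/-- A finite set of `3`-torsion points has at most `9` elements. -/
theorem card_three_torsion_le (h3 : (3 : K) ≠ 0) (s : Finset V.toAffine.Point)
    (hs : ∀ P ∈ s, (3 : ℕ) • P = 0) : s.card ≤ 3 ^ 2 := by
  classical
  have hsplit : s = (s.filter fun P => P = 0) ∪ (s.filter fun P => P ≠ 0) := by
    ext P
    simp only [Finset.mem_union, Finset.mem_filter]
    tauto
  have h1 : (s.filter fun P => P = 0).card ≤ 1 := by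
    apply Finset.card_le_one.mpr
    intro a ha b hb
    rw [Finset.mem_filter] at ha hb
    rw [ha.2, hb.2]
  have h2 : (s.filter fun P => P ≠ 0).card ≤ 2 * V.Ψ₃.natDegree := by
    apply card_le_of_roots V V.Ψ₃ (V.Ψ₃_ne_zero h3)
    intro P hP
    rw [Finset.mem_filter] at hP
    refine ⟨hP.2, ?_⟩
    rcases P with _ | ⟨x, y, h⟩
    · exact absurd rfl hP.2
    · rw [absc_some, eval_Ψ₃]
      exact B8_eq_zero_of_three_nsmul V h (hs _ hP.1)
  rw [V.natDegree_Ψ₃ h3] at h2
  calc s.card = ((s.filter fun P => P = 0) ∪ (s.filter fun P => P ≠ 0)).card := by rw [← hsplit]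
    _ ≤ (s.filter fun P => P = 0).card + (s.filter fun P => P ≠ 0).card := Finset.card_union_le _ _
    _ ≤ 1 + 2 * 4 := Nat.add_le_add h1 h2
    _ = 3 ^ 2 := by norm_num

/-- Over an algebraically closed field, a nonsingular curve has a nonzero `3`-torsion point. -/
theorem exists_three_torsion [IsAlgClosed K] (hΔ : V.Δ ≠ 0) (h3 : (3 : K) ≠ 0) :
    ∃ P : V.toAffine.Point, P ≠ 0 ∧ (3 : ℕ) • P = 0 := by
  have hdeg : V.Ψ₃.degree ≠ 0 := by
    rw [Polynomial.degree_eq_natDegree (V.Ψ₃_ne_zero h3), V.natDegree_Ψ₃ h3]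
    norm_num
  obtain ⟨x, hx⟩ := IsAlgClosed.exists_root V.Ψ₃ hdeg
  have h8 : Pts.B8 V x = 0 := by rw [← eval_Ψ₃]; exact hx
  obtain ⟨y, h⟩ := Pts.exists_point V hΔ x
  have h6 : Pts.B6 V x ≠ 0 := by
    intro h6
    have hrel := Pts.B_rel V x
    rw [h8, h6] at hrel
    have h4 : Pts.B4 V x = 0 := by
      have : Pts.B4 V x ^ 2 = 0 := by linear_combination hrel
      exact pow_eq_zero_iff (two_ne_zero) |>.mp this
    apply hΔ
    rw [Pts.Δ_eq V x, h8, h6, h4]
    ring
  obtain ⟨y', h', hdbl⟩ := Pts.two_nsmul_some V h h6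
  have hxx : x - Pts.B8 V x / Pts.B6 V x = x := by rw [h8]; simp
  refine ⟨Affine.Point.some x y h, Affine.Point.some_ne_zero h, ?_⟩
  rcases eq_or_eq_neg_of_x_eq' V h' h hxx with hc | hc
  · -- `2P = P` is impossible
    exfalso
    rw [← hdbl, two_nsmul] at hc
    exact Affine.Point.some_ne_zero h (add_eq_left.mp hc)
  · rw [← hdbl] at hc
    rw [succ_nsmul, hc]
    exact neg_add_cancel _

end General

section Galois

variable (E : WeierstrassCurve ℚ)

/-- If `σ • P = c • P` for a nonzero point `P = (x, y)` with `3 • P = 0`, then `σ x = x`. -/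
theorem smul_x_eq_of_three {x y : Qbar} (h : (E⁄Qbar).toAffine.Nonsingular x y)
    (h3 : (3 : ℕ) • (Affine.Point.some x y h : (E⁄Qbar).toAffine.Point) = 0)
    (σ : Qbar ≃ₐ[ℚ] Qbar) (c : ℕ)
    (hc : σ • (Affine.Point.some x y h : (E⁄Qbar).toAffine.Point) =
      c • (Affine.Point.some x y h : (E⁄Qbar).toAffine.Point)) : σ x = x := by
  obtain ⟨h', hs⟩ := Pts.smul_some E σ h
  rw [hs, nsmul_eq_mod_nsmul c h3] at hc
  have hlt : c % 3 < 3 := Nat.mod_lt _ (by norm_num)
  have h2 : (2 : ℕ) • (Affine.Point.some x y h : (E⁄Qbar).toAffine.Point) =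
      -Affine.Point.some x y h := by
    have h3' : (2 : ℕ) • (Affine.Point.some x y h : (E⁄Qbar).toAffine.Point) +
        Affine.Point.some x y h = 0 := by
      rw [← succ_nsmul]; exact h3
    exact eq_neg_of_add_eq_zero_left h3'
  interval_cases hcm : c % 3
  · rw [zero_nsmul] at hc
    exact absurd hc (Affine.Point.some_ne_zero h')
  · rw [one_nsmul] at hc
    exact Affine.Point.X_eq_iff.mpr (Or.inl hc)
  · rw [h2] at hc
    exact Affine.Point.X_eq_iff.mpr (Or.inr hc)

end Galois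

/-- **Part A3.** If the mod-3 representation of `W` is reducible, there is a nonzero rational `k`
with `c₄³ k = Δ (k + 27)(k + 3)³` (a rational point of `X₀(3)` above `j(W)`). -/
theorem exists_k (W : WeierstrassCurve ℤ) (hΔ : W.Δ ≠ 0) (h3 : ¬ W.ModRepIsIrreducible 3) :
    ∃ k : ℚ, k ≠ 0 ∧ (W.c₄ : ℚ) ^ 3 * k = W.Δ * ((k + 27) * (k + 3) ^ 3) := by
  set E : WeierstrassCurve ℚ := W.map (Int.castRingHom ℚ) with hE
  have hΔE : E.Δ ≠ 0 := by
    rw [hE, WeierstrassCurve.map_Δ]
    simpa using hΔ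
  have hinj : Function.Injective (algebraMap ℚ Qbar) := (algebraMap ℚ Qbar).injective
  have hΔV : (E⁄Qbar).Δ ≠ 0 := by
    show (E.map (algebraMap ℚ Qbar)).Δ ≠ 0
    rw [WeierstrassCurve.map_Δ]
    exact fun h0 => hΔE (hinj (by rw [h0, map_zero]))
  have h3Q : (3 : Qbar) ≠ 0 := by norm_num
  have : Fact (Nat.Prime 3) := ⟨Nat.prime_three⟩
  obtain ⟨P, hP0, hP3, hσ⟩ := Line.exists_stable_line E 3
    (exists_three_torsion (E⁄Qbar) hΔV h3Q)
    (fun s hs => card_three_torsion_le (E⁄Qbar) h3Q s hs) h3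
  rcases P with _ | ⟨x, y, h⟩
  · exact absurd rfl hP0
  have hfix : ∀ σ : Qbar ≃ₐ[ℚ] Qbar, σ x = x := fun σ => by
    obtain ⟨c, hc⟩ := hσ σ
    exact smul_x_eq_of_three E h hP3 σ c hc
  obtain ⟨q, hq⟩ := Pts.exists_rat_of_fixed x hfix
  have h8 : Pts.B8 (E⁄Qbar) x = 0 := B8_eq_zero_of_three_nsmul (E⁄Qbar) h hP3
  have h8q : Pts.B8 E q = 0 := by
    have hmap := Pts.B8_map E (algebraMap ℚ Qbar) q
    rw [hq] at hmap
    apply hinj
    rw [← hmap, map_zero]
    exact h8
  have hrel : Pts.B2 E q * Pts.B6 E q = Pts.B4 E q ^ 2 := by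
    have := Pts.B_rel E q
    rw [h8q] at this
    linear_combination -this
  have hD : E.Δ = -8 * Pts.B4 E q ^ 3 - 27 * Pts.B6 E q ^ 2
      + 9 * Pts.B2 E q * Pts.B4 E q * Pts.B6 E q := by
    rw [Pts.Δ_eq E q, h8q]
    ring
  obtain ⟨k, hk0, hk, -, -⟩ := Alg.exists_k hrel (Pts.c4_eq E q) hD hΔE
  refine ⟨k, hk0, ?_⟩
  have hc4 : E.c₄ = (W.c₄ : ℚ) := by rw [hE, WeierstrassCurve.map_c₄]; simp
  have hΔ' : E.Δ = (W.Δ : ℚ) := by rw [hE, WeierstrassCurve.map_Δ]; simp
  rw [← hc4, ← hΔ']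
  exact hk

end Fermat.Agent.S51Lib.Tors3
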