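import Mathlib
import Fermat.Agent.S51Lib.Pts

/-!
# S51: points of order five

Structure of the `5`-torsion points of a Weierstrass curve over a field, in terms of the
translated invariants of `Pts.lean`:

* `five_rel`: for a point `P = (x, y)` with `5 • P = 0`, `d := x(2P) - x(P) = -B8/B6` satisfies
  `d ^ 3 - d * B4 - B6 = 0`;
* `card_le`: there are at most `25` points killed by `5`;
* `exists_order_five`: over an algebraically closed field there is a point of order `5`;
* `nsmul_cases`: the multiples of a point killed by `5`.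
-/

set_option autoImplicit false

namespace Fermat.Agent.S51Lib.Five

open WeierstrassCurve Fermat.Agent.S51Lib.Pts

variable {K : Type*} [Field K] [DecidableEq K] (V : WeierstrassCurve K)

/-- The multiples of a point killed by `5`. -/
theorem nsmul_cases {P : V.toAffine.Point} (h5 : (5 : ℕ) • P = 0) (c : ℕ) :
    c • P = 0 ∨ c • P = P ∨ c • P = -P ∨ c • P = (2 : ℕ) • P ∨ c • P = -((2 : ℕ) • P) := by
  have hc : c • P = (c % 5) • P := by
    conv_lhs => rw [← Nat.div_add_mod' c 5, add_smul, mul_smul, h5, smul_zero, zero_add]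
  have h4 : (4 : ℕ) • P = -P := by
    rw [eq_neg_iff_add_eq_zero, ← succ_nsmul]
    exact h5
  have h3 : (3 : ℕ) • P = -((2 : ℕ) • P) := by
    rw [eq_neg_iff_add_eq_zero, ← add_smul]
    exact h5
  have hlt : c % 5 < 5 := Nat.mod_lt _ (by norm_num)
  rw [hc]
  interval_cases c % 5
  · left; exact zero_smul _ _
  · right; left; exact one_smul _ _
  · right; right; right; left; rfl
  · right; right; right; right; exact h3
  · right; right; left; exact h4

/-- The relation satisfied by `d = x(2P) - x(P)` at a point of order `5`. -/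
theorem five_rel {x y : K} (h : V.toAffine.Nonsingular x y)
    (h5 : (5 : ℕ) • (Affine.Point.some x y h) = 0) :
    B6 V x ≠ 0 ∧ B8 V x ≠ 0 ∧
      (-B8 V x / B6 V x) ^ 3 - (-B8 V x / B6 V x) * B4 V x - B6 V x = 0 ∧
      B6 V (x + -B8 V x / B6 V x) ≠ 0 ∧
      B8 V (x + -B8 V x / B6 V x) = (-B8 V x / B6 V x) * B6 V (x + -B8 V x / B6 V x) ∧
      ∃ (y2 : K) (h2 : V.toAffine.Nonsingular (x + -B8 V x / B6 V x) y2),
        (2 : ℕ) • (Affine.Point.some x y h) = Affine.Point.some _ y2 h2 := by
  set P : V.toAffine.Point := Affine.Point.some x y h with hP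
  have hP0 : P ≠ 0 := Affine.Point.some_ne_zero h
  -- `2 • P ≠ 0`
  have h2P0 : (2 : ℕ) • P ≠ 0 := by
    intro h2
    apply hP0
    have : (5 : ℕ) • P = P + (2 : ℕ) • ((2 : ℕ) • P) := by
      abel
    rw [this, h2, smul_zero, add_zero] at h5
    exact h5
  have h6 : B6 V x ≠ 0 := fun h6 => h2P0 ((two_nsmul_some_eq_zero_iff V h).mpr h6)
  obtain ⟨y2, h2, h2P⟩ := two_nsmul_some V h h6
  have hx2 : x - B8 V x / B6 V x = x + -B8 V x / B6 V x := by ring
  -- `d ≠ 0`
  have h8 : B8 V x ≠ 0 := by
    intro h8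
    have hx : x - B8 V x / B6 V x = x := by rw [h8]; simp
    have h2' : V.toAffine.Nonsingular x y2 := hx ▸ h2
    have h2P' : (2 : ℕ) • P = Affine.Point.some x y2 h2' := by
      rw [h2P]; congr 1
    rcases eq_or_eq_neg_of_x_eq V h2' h with h3 | h3
    · -- `2P = P`
      have h3' : (2 : ℕ) • P = P := h2P'.trans h3
      rw [two_nsmul] at h3'
      exact hP0 (add_eq_left.mp h3')
    · -- `2P = -P`, so `3P = 0`, so `2P = 0`
      have h3'' : (2 : ℕ) • P = -P := h2P'.trans h3
      have h3' : (3 : ℕ) • P = 0 := by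
        rw [succ_nsmul, h3'', neg_add_cancel]
      apply h2P0
      have : (5 : ℕ) • P = (3 : ℕ) • P + (2 : ℕ) • P := by rw [← add_smul]
      rw [this, h3', zero_add] at h5
      exact h5
  set d : K := -B8 V x / B6 V x with hd
  have hd0 : d ≠ 0 := by
    rw [hd]; exact div_ne_zero (neg_ne_zero.mpr h8) h6
  have h2'' : V.toAffine.Nonsingular (x + d) y2 := hx2 ▸ h2
  have h2P'' : (2 : ℕ) • P = Affine.Point.some (x + d) y2 h2'' := by
    rw [h2P]; congr 1
  -- `4 • P ≠ 0`
  have h4P : (2 : ℕ) • (Affine.Point.some (x + d) y2 h2'') = -P := by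
    rw [← h2P'', ← mul_smul, eq_neg_iff_add_eq_zero, ← succ_nsmul]
    exact h5
  have h62 : B6 V (x + d) ≠ 0 := by
    intro h62
    have := (two_nsmul_some_eq_zero_iff V h2'').mpr h62
    rw [h4P, neg_eq_zero] at this
    exact hP0 this
  obtain ⟨y4, h4, h4P'⟩ := two_nsmul_some V h2'' h62
  rw [h4P, hP, Affine.Point.neg_some] at h4P'
  have hx4 : x = x + d - B8 V (x + d) / B6 V (x + d) := by
    injection h4P'
  have h82 : B8 V (x + d) = d * B6 V (x + d) := by
    field_simp at hx4
    linear_combination hx4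
  have h8d : B8 V x = -d * B6 V x := by
    rw [hd]; field_simp
  refine ⟨h6, h8, ?_, h62, h82, y2, h2'', h2P''⟩
  -- the relation
  rw [B6_add, B8_add] at h82
  have : d * (d ^ 3 - d * B4 V x - B6 V x) = 0 := by
    linear_combination (-1 : K) * h82 + h8d
  exact (mul_eq_zero.mp this).resolve_left hd0


section Poly

open Polynomial

/-- `B4` as a polynomial in `x`. -/
noncomputable def pB4 : K[X] := C V.b₄ + C V.b₂ * X + 6 * X ^ 2

/-- `B6` as a polynomial in `x`. -/
noncomputable def pB6 : K[X] := C V.b₆ + 2 * C V.b₄ * X + C V.b₂ * X ^ 2 + 4 * X ^ 3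

/-- `B8` as a polynomial in `x`. -/
noncomputable def pB8 : K[X] :=
  C V.b₈ + 3 * C V.b₆ * X + 3 * C V.b₄ * X ^ 2 + C V.b₂ * X ^ 3 + 3 * X ^ 4

/-- The polynomial (of degree `12`) whose roots are the abscissae of the points of order `5`. -/
noncomputable def q5 : K[X] := pB8 V ^ 3 - pB4 V * pB6 V ^ 2 * pB8 V + pB6 V ^ 4

omit [DecidableEq K] in
theorem eval_q5 (x : K) :
    (q5 V).eval x = B8 V x ^ 3 - B4 V x * B6 V x ^ 2 * B8 V x + B6 V x ^ 4 := by
  simp [q5, pB4, pB6, pB8, B4, B6, B8]

omit [DecidableEq K] in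
theorem natDegree_q5 (h5 : (5 : K) ≠ 0) : (q5 V).natDegree = 12 := by
  unfold q5 pB4 pB6 pB8
  compute_degree!

omit [DecidableEq K] in
theorem q5_ne_zero (h5 : (5 : K) ≠ 0) : q5 V ≠ 0 := by
  intro h
  have := natDegree_q5 V h5
  rw [h, natDegree_zero] at this
  norm_num at this

/-- The abscissa of a point (`0` for the point at infinity). -/
def xc : V.toAffine.Point → K
  | .zero => 0
  | .some x _ _ => x

/-- The abscissa of a nonzero point killed by `5` is a root of `q5`. -/
theorem isRoot_q5 {x y : K} (h : V.toAffine.Nonsingular x y)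
    (h5 : (5 : ℕ) • (Affine.Point.some x y h) = 0) : (q5 V).IsRoot x := by
  obtain ⟨h6, -, hrel, -⟩ := five_rel V h h5
  rw [IsRoot, eval_q5]
  field_simp at hrel
  linear_combination (-1 : K) * hrel

/-- There are at most `25` points killed by `5`. -/
theorem card_le (h5 : (5 : K) ≠ 0) (s : Finset V.toAffine.Point)
    (hs : ∀ P ∈ s, (5 : ℕ) • P = 0) : s.card ≤ 5 ^ 2 := by
  classical
  have h1 : s.card - 1 ≤ (s.erase 0).card := Finset.pred_card_le_card_erase
  have h2 : (s.erase 0).card ≤ 2 * ((s.erase 0).image (xc V)).card := by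
    apply Finset.card_le_mul_card_image
    intro a ha
    obtain ⟨P0, hP0, rfl⟩ := Finset.mem_image.mp ha
    refine le_trans (Finset.card_le_card (t := {P0, -P0}) ?_) Finset.card_le_two
    intro P hP
    rw [Finset.mem_filter, Finset.mem_erase] at hP
    obtain ⟨⟨hP0', -⟩, hx⟩ := hP
    rw [Finset.mem_erase] at hP0
    rw [Finset.mem_insert, Finset.mem_singleton]
    rcases P with _ | ⟨x, y, h⟩
    · exact absurd rfl hP0'
    · rcases P0 with _ | ⟨x0, y0, h0⟩
      · exact absurd rfl hP0.1
      · have hxx : x = x0 := hx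
        subst hxx
        exact eq_or_eq_neg_of_x_eq V h h0
  have h3 : ((s.erase 0).image (xc V)).card ≤ 12 := by
    have hsub : (s.erase 0).image (xc V) ⊆ (q5 V).roots.toFinset := by
      intro a ha
      obtain ⟨P, hP, rfl⟩ := Finset.mem_image.mp ha
      rw [Finset.mem_erase] at hP
      rw [Multiset.mem_toFinset, mem_roots (q5_ne_zero V h5)]
      rcases P with _ | ⟨x, y, h⟩
      · exact absurd rfl hP.1
      · exact isRoot_q5 V h (hs _ hP.2)
    calc ((s.erase 0).image (xc V)).card ≤ (q5 V).roots.toFinset.card := Finset.card_le_card hsub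
      _ ≤ Multiset.card (q5 V).roots := Multiset.toFinset_card_le _
      _ ≤ (q5 V).natDegree := card_roots' _
      _ = 12 := natDegree_q5 V h5
  omega

/-- Over an algebraically closed field (of characteristic `≠ 5`) there is a point of order `5`. -/
theorem exists_order_five [IsAlgClosed K] (hΔ : V.Δ ≠ 0) (h5 : (5 : K) ≠ 0) :
    ∃ P : V.toAffine.Point, P ≠ 0 ∧ (5 : ℕ) • P = 0 := by
  have hdeg : (q5 V).degree ≠ 0 := by
    rw [degree_eq_natDegree (q5_ne_zero V h5), natDegree_q5 V h5]
    norm_num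
  obtain ⟨x, hx⟩ := IsAlgClosed.exists_root (q5 V) hdeg
  rw [IsRoot, eval_q5] at hx
  -- `B6 ≠ 0`
  have h6 : B6 V x ≠ 0 := by
    intro h6
    rw [h6] at hx
    have h8 : B8 V x = 0 := by
      have : B8 V x ^ 3 = 0 := by linear_combination hx
      exact pow_eq_zero_iff (by norm_num) |>.mp this
    have h4 : B4 V x = 0 := by
      have := B_rel V x
      rw [h6, h8] at this
      have : B4 V x ^ 2 = 0 := by linear_combination this
      exact pow_eq_zero_iff (by norm_num) |>.mp this
    apply hΔ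
    rw [Δ_eq V x, h6, h8, h4]
    ring
  have h8 : B8 V x ≠ 0 := by
    intro h8
    rw [h8] at hx
    have : B6 V x ^ 4 = 0 := by linear_combination hx
    exact h6 (pow_eq_zero_iff (by norm_num) |>.mp this)
  set d : K := -B8 V x / B6 V x with hd
  have hd0 : d ≠ 0 := by
    rw [hd]; exact div_ne_zero (neg_ne_zero.mpr h8) h6
  have h8d : B8 V x = -d * B6 V x := by
    rw [hd]; field_simp
  have hrel : d ^ 3 - d * B4 V x - B6 V x = 0 := by
    have : B6 V x ^ 3 * (d ^ 3 - d * B4 V x - B6 V x) = 0 := by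
      rw [hd]; field_simp; linear_combination (-1 : K) * hx
    exact (mul_eq_zero.mp this).resolve_left (pow_ne_zero _ h6)
  -- the point
  obtain ⟨y, h⟩ := exists_point V hΔ x
  obtain ⟨y2, h2, h2P⟩ := two_nsmul_some V h h6
  have hx2 : x - B8 V x / B6 V x = x + d := by rw [hd]; ring
  have h2' : V.toAffine.Nonsingular (x + d) y2 := hx2 ▸ h2
  have h2P' : (2 : ℕ) • (Affine.Point.some x y h) = Affine.Point.some (x + d) y2 h2' := by
    rw [h2P]; congr 1
  -- `B6` at the double point
  have h62 : B6 V x * B6 V (x + d) = d ^ 6 := by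
    rw [B6_add]
    linear_combination (-d ^ 2) * B_rel V x + (4 * d ^ 2) * h8d -
      (B6 V x + B4 V x * d + d ^ 3) * hrel
  have h62' : B6 V (x + d) ≠ 0 := by
    intro h0
    rw [h0, mul_zero] at h62
    exact hd0 (pow_eq_zero_iff (by norm_num) |>.mp h62.symm)
  have h82 : B8 V (x + d) = d * B6 V (x + d) := by
    rw [B6_add, B8_add]
    linear_combination h8d - d * hrel
  obtain ⟨y4, h4, h4P⟩ := two_nsmul_some V h2' h62'
  have hx4 : x + d - B8 V (x + d) / B6 V (x + d) = x := by
    rw [h82]; field_simp; ring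
  have h4' : V.toAffine.Nonsingular x y4 := hx4 ▸ h4
  have h4P' : (2 : ℕ) • (Affine.Point.some (x + d) y2 h2') = Affine.Point.some x y4 h4' := by
    rw [h4P]; congr 1
  refine ⟨Affine.Point.some x y h, Affine.Point.some_ne_zero h, ?_⟩
  set P : V.toAffine.Point := Affine.Point.some x y h with hP
  have h4P'' : (4 : ℕ) • P = Affine.Point.some x y4 h4' := by
    rw [← h4P', ← h2P', ← mul_smul]; rfl
  rcases eq_or_eq_neg_of_x_eq V h4' h with h3 | h3
  · -- `4P = P` is impossible: it would give `2P = -P`, i.e. `d = 0`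
    exfalso
    have h3' : (4 : ℕ) • P = P := h4P''.trans h3
    have h3P : (2 : ℕ) • P = -P := by
      have h3P' : (3 : ℕ) • P = 0 := by
        have : (4 : ℕ) • P = (3 : ℕ) • P + P := by rw [succ_nsmul]
        rw [this] at h3'
        exact add_eq_right.mp h3'
      rw [eq_neg_iff_add_eq_zero, ← succ_nsmul]
      exact h3P'
    rw [h2P', hP, Affine.Point.neg_some] at h3P
    have : x + d = x := by injection h3P
    exact hd0 (by linear_combination this)
  · -- `4P = -P`
    have h3' : (4 : ℕ) • P = -P := h4P''.trans h3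
    rw [succ_nsmul, h3', neg_add_cancel]

end Poly

end Fermat.Agent.S51Lib.Five
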