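import Mathlib
import Fermat.Prelude.Def_FLTPrelim_GaloisRep
import Fermat.Prelude.Def_FLTPrelim_ModularRep
import Fermat.Agent.S51Lib.Pts
import Fermat.Agent.S51Lib.Line
import Fermat.Agent.S51Lib.AlgKW
import Fermat.Agent.S51Lib.Five

/-!
S51, part A5: a reducible mod-5 representation gives a rational point `w` on the
`X₀(5)`-relation `c₄³ w = Δ (w² + 10 w + 5)³`.
-/

set_option autoImplicit false

namespace Fermat.Agent.S51Lib.Tors5

open WeierstrassCurve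

local notation "Qbar" => AlgebraicClosure ℚ

section Galois

variable (E : WeierstrassCurve ℚ)

/-- If `σ • P = c • P` for a point `P = (x, y)` with `5 • P = 0`, then `σ` fixes or swaps the
abscissae `x = x(P)` and `x + d = x(2P)`. -/
theorem smul_x_of_five {x y : Qbar} (h : (E⁄Qbar).toAffine.Nonsingular x y)
    (h5 : (5 : ℕ) • (Affine.Point.some x y h : (E⁄Qbar).toAffine.Point) = 0)
    (σ : Qbar ≃ₐ[ℚ] Qbar) (c : ℕ)
    (hc : σ • (Affine.Point.some x y h : (E⁄Qbar).toAffine.Point) =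
      c • (Affine.Point.some x y h : (E⁄Qbar).toAffine.Point)) :
    σ x = x ∨ σ x = x + -Pts.B8 (E⁄Qbar) x / Pts.B6 (E⁄Qbar) x := by
  obtain ⟨-, -, -, -, -, y2, h2, h2P⟩ := Five.five_rel (E⁄Qbar) h h5
  obtain ⟨h', hs⟩ := Pts.smul_some E σ h
  rw [hs] at hc
  rcases Five.nsmul_cases (E⁄Qbar) h5 c with h0 | h1 | h1 | h1 | h1
  · rw [h0] at hc
    exact absurd hc (Affine.Point.some_ne_zero h')
  · rw [h1] at hc
    exact Or.inl (Affine.Point.X_eq_iff.mpr (Or.inl hc))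
  · rw [h1] at hc
    exact Or.inl (Affine.Point.X_eq_iff.mpr (Or.inr hc))
  · rw [h1, h2P] at hc
    exact Or.inr (Affine.Point.X_eq_iff.mpr (Or.inl hc))
  · rw [h1, h2P] at hc
    exact Or.inr (Affine.Point.X_eq_iff.mpr (Or.inr hc))

end Galois

/-- **Part A5.** If the mod-5 representation of `W` is reducible, there is a nonzero rational `w`
with `c₄³ w = Δ (w² + 10 w + 5)³` (a rational point of `X₀(5)` above `j(W)`). -/
theorem exists_w (W : WeierstrassCurve ℤ) (hΔ : W.Δ ≠ 0) (h5 : ¬ W.ModRepIsIrreducible 5) :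
    ∃ w : ℚ, w ≠ 0 ∧ (W.c₄ : ℚ) ^ 3 * w = W.Δ * (w ^ 2 + 10 * w + 5) ^ 3 := by
  set E : WeierstrassCurve ℚ := W.map (Int.castRingHom ℚ) with hE
  have hΔE : E.Δ ≠ 0 := by
    rw [hE, WeierstrassCurve.map_Δ]
    simpa using hΔ
  have hinj : Function.Injective (algebraMap ℚ Qbar) := (algebraMap ℚ Qbar).injective
  have hΔmap : (E⁄Qbar).Δ = algebraMap ℚ Qbar E.Δ := by
    show (E.map (algebraMap ℚ Qbar)).Δ = _
    rw [WeierstrassCurve.map_Δ]
  have hc4map : (E⁄Qbar).c₄ = algebraMap ℚ Qbar E.c₄ := by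
    show (E.map (algebraMap ℚ Qbar)).c₄ = _
    rw [WeierstrassCurve.map_c₄]
  have hΔV : (E⁄Qbar).Δ ≠ 0 := by
    rw [hΔmap]
    exact fun h0 => hΔE (hinj (by rw [h0, map_zero]))
  have h5Q : (5 : Qbar) ≠ 0 := by norm_num
  have : Fact (Nat.Prime 5) := ⟨by norm_num⟩
  obtain ⟨P, hP0, hP5, hσ⟩ := Line.exists_stable_line E 5
    (Five.exists_order_five (E⁄Qbar) hΔV h5Q)
    (fun s hs => Five.card_le (E⁄Qbar) h5Q s hs) h5
  rcases P with _ | ⟨x, y, h⟩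
  · exact absurd rfl hP0
  obtain ⟨h6, h8, hrel, h62, h82, -, -, -⟩ := Five.five_rel (E⁄Qbar) h hP5
  set d : Qbar := -Pts.B8 (E⁄Qbar) x / Pts.B6 (E⁄Qbar) x with hd
  have hd0 : d ≠ 0 := by
    rw [hd]; exact div_ne_zero (neg_ne_zero.mpr h8) h6
  have h8d : Pts.B8 (E⁄Qbar) x = -d * Pts.B6 (E⁄Qbar) x := by
    rw [hd]; field_simp
  -- the Galois action on `x` and `d`
  have hgal : ∀ σ : Qbar ≃ₐ[ℚ] Qbar, (σ x = x ∧ σ d = d) ∨ (σ x = x + d ∧ σ d = -d) := by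
    intro σ
    obtain ⟨c, hc⟩ := hσ σ
    have hσd : σ d = -Pts.B8 (E⁄Qbar) (σ x) / Pts.B6 (E⁄Qbar) (σ x) := by
      rw [hd, map_div₀, map_neg, Pts.B6_smul, Pts.B8_smul]
    rcases smul_x_of_five E h hP5 σ c hc with hx | hx
    · left
      refine ⟨hx, ?_⟩
      rw [hσd, hx]
    · right
      rw [← hd] at hx
      refine ⟨hx, ?_⟩
      rw [hσd, hx, h82]
      field_simp
  -- the invariant
  set w : Qbar := d ^ 3 / Pts.B6 (E⁄Qbar) x + (-d) ^ 3 / Pts.B6 (E⁄Qbar) (x + d) - 11 with hw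
  have hfix : ∀ σ : Qbar ≃ₐ[ℚ] Qbar, σ w = w := by
    intro σ
    have e1 : σ (Pts.B6 (E⁄Qbar) x) = Pts.B6 (E⁄Qbar) (σ x) := (Pts.B6_smul E σ x).symm
    have e2 : σ (Pts.B6 (E⁄Qbar) (x + d)) = Pts.B6 (E⁄Qbar) (σ x + σ d) := by
      rw [← Pts.B6_smul, map_add]
    have e3 : σ w = (σ d) ^ 3 / Pts.B6 (E⁄Qbar) (σ x) +
        (-(σ d)) ^ 3 / Pts.B6 (E⁄Qbar) (σ x + σ d) - 11 := by
      rw [hw, map_sub, map_add, map_div₀, map_div₀, map_pow, map_pow, map_neg, e1, e2,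
        map_ofNat]
    rw [e3]
    rcases hgal σ with ⟨hx, hd'⟩ | ⟨hx, hd'⟩
    · rw [hx, hd']
    · rw [hx, hd', hw]
      have : x + d + -d = x := by ring
      rw [this, neg_neg]
      ring
  obtain ⟨q, hq⟩ := Pts.exists_rat_of_fixed w hfix
  -- the algebra
  obtain ⟨-, k2, k3⟩ := Alg.exists_w (Pts.B_rel (E⁄Qbar) x) h8d hrel h6 hd0
    (Pts.c4_eq (E⁄Qbar) x) (Pts.Δ_eq (E⁄Qbar) x) hΔV
  rw [← Pts.B6_add (E⁄Qbar) x d] at k2
  have k3' : (E⁄Qbar).c₄ ^ 3 * w = (E⁄Qbar).Δ * (w ^ 2 + 10 * w + 5) ^ 3 := by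
    have := k3
    simp only at this
    rw [← Pts.B6_add (E⁄Qbar) x d] at this
    exact this
  have hc4 : E.c₄ = (W.c₄ : ℚ) := by rw [hE, WeierstrassCurve.map_c₄]; simp
  have hΔ' : E.Δ = (W.Δ : ℚ) := by rw [hE, WeierstrassCurve.map_Δ]; simp
  refine ⟨q, ?_, ?_⟩
  · intro hq0
    apply k2
    rw [← hw, ← hq, hq0, map_zero]
  · rw [← hc4, ← hΔ']
    apply hinj
    rw [hc4map, hΔmap, ← hq] at k3'
    simpa using k3'

end Fermat.Agent.S51Lib.Tors5
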