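import Fermat.Agent.S51Lib.Defs

/-!
# S51, algebraic part

From the abscissa of a point of order 3 and the two abscissas of a cyclic group of order 5 we
derive the equation of `X_0(15)` and, given the list of its rational points, a contradiction
with semistability at 5.
-/

set_option autoImplicit false

namespace Fermat.Agent.S51Lib

/-- the curve over `ℚ` -/
noncomputable abbrev WQ (W : WeierstrassCurve ℤ) : WeierstrassCurve ℚ := W.map (Int.castRingHom ℚ)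

/-- the curve over `ℚ̄` -/
noncomputable abbrev WK (W : WeierstrassCurve ℤ) : WeierstrassCurve (AlgebraicClosure ℚ) :=
  (W.map (Int.castRingHom ℚ)).map (algebraMap ℚ (AlgebraicClosure ℚ))

section field

variable {K : Type*} [Field K]

/-- The universal relation between `κ = (x₀-x₁)(x₀-x₂)`, `D = (x₁-x₂)^2`, `β = ψ₂²(x₀)` and
`Δ`, for `x₀` a root of `ψ₃` and `x₁, x₂` the abscissas of `P, 2P` with `P` of order 5. -/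
theorem id1_field (E : WeierstrassCurve K) (x₁ x₂ x₀ : K)
    (hne : x₁ ≠ x₂) (h61 : tB6 E x₁ ≠ 0)
    (hd1 : (x₂ - x₁) * tB6 E x₁ = - tB8 E x₁)
    (hd2 : (x₁ - x₂) * tB6 E x₂ = - tB8 E x₂)
    (h3 : tB8 E x₀ = 0) :
    ((x₀ - x₁) * (x₀ - x₂)) ^ 5 * ((x₀ - x₁) * (x₀ - x₂) - (x₁ - x₂) ^ 2) * E.Δ ^ 2
      - 5 * ((x₀ - x₁) * (x₀ - x₂)) ^ 3 * ((x₁ - x₂) ^ 2) ^ 3 * tB6 E x₀ ^ 2 * E.Δ
      - (9 * ((x₀ - x₁) * (x₀ - x₂)) + (x₁ - x₂) ^ 2) * ((x₁ - x₂) ^ 2) ^ 5 * tB6 E x₀ ^ 4 = 0 := by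
  obtain ⟨w, hw⟩ : ∃ w, w = x₂ - x₁ := ⟨_, rfl⟩
  obtain ⟨z, hz⟩ : ∃ z, z = x₀ - x₁ := ⟨_, rfl⟩
  have hw0 : w ≠ 0 := by rw [hw]; exact sub_ne_zero.mpr (Ne.symm hne)
  obtain ⟨B2, hB2d⟩ : ∃ B2, B2 = tB2 E x₁ := ⟨_, rfl⟩
  obtain ⟨B4, hB4d⟩ : ∃ B4, B4 = tB4 E x₁ := ⟨_, rfl⟩
  obtain ⟨B6, hB6d⟩ : ∃ B6, B6 = tB6 E x₁ := ⟨_, rfl⟩
  obtain ⟨B8, hB8d⟩ : ∃ B8, B8 = tB8 E x₁ := ⟨_, rfl⟩
  have hrel : 4 * B8 = B2 * B6 - B4 ^ 2 := by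
    rw [hB2d, hB4d, hB6d, hB8d]; exact tB_relation E x₁
  have hx2 : x₂ = x₁ + w := by rw [hw]; ring
  have hx0 : x₀ = x₁ + z := by rw [hz]; ring
  have e6 : tB6 E x₂ = B6 + 2 * w * B4 + w ^ 2 * B2 + 4 * w ^ 3 := by
    rw [hx2, tB6_add, hB2d, hB4d, hB6d]
  have e8 : tB8 E x₂ = B8 + 3 * w * B6 + 3 * w ^ 2 * B4 + w ^ 3 * B2 + 3 * w ^ 4 := by
    rw [hx2, tB8_add, hB2d, hB4d, hB6d, hB8d]
  have e80 : tB8 E x₀ = B8 + 3 * z * B6 + 3 * z ^ 2 * B4 + z ^ 3 * B2 + 3 * z ^ 4 := by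
    rw [hx0, tB8_add, hB2d, hB4d, hB6d, hB8d]
  have e60 : tB6 E x₀ = B6 + 2 * z * B4 + z ^ 2 * B2 + 4 * z ^ 3 := by
    rw [hx0, tB6_add, hB2d, hB4d, hB6d]
  have eΔ : E.Δ = -B2 ^ 2 * B8 - 8 * B4 ^ 3 - 27 * B6 ^ 2 + 9 * B2 * B4 * B6 := by
    rw [hB2d, hB4d, hB6d, hB8d]; exact Δ_eq_tB E x₁
  have hB60 : B6 ≠ 0 := by rw [hB6d]; exact h61
  have h1 : w * B6 = -B8 := by rw [hw, hB6d, hB8d]; exact hd1
  have h2 : w ^ 4 - w ^ 2 * B4 - 2 * w * B6 - B8 = 0 := by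
    have h := hd2
    rw [e6, e8] at h
    have hx : x₁ - x₂ = -w := by rw [hw]; ring
    rw [hx] at h
    linear_combination -h
  have h3' : w ^ 3 - w * B4 - B6 = 0 := by
    have h : w * (w ^ 3 - w * B4 - B6) = 0 := by linear_combination h2 + h1
    exact (mul_eq_zero.mp h).resolve_left hw0
  obtain ⟨e, he⟩ : ∃ e, e = w ^ 2 - B4 := ⟨_, rfl⟩
  have hB4 : B4 = w ^ 2 - e := by rw [he]; ring
  have hB6 : B6 = w * e := by rw [he]; linear_combination -h3'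
  have he0 : e ≠ 0 := by
    rintro h
    apply hB60
    rw [hB6, h, mul_zero]
  have hB8 : B8 = -(w ^ 2 * e) := by linear_combination h1 - w * hB6
  have hB2 : B2 * (w * e) = w ^ 4 - 6 * w ^ 2 * e + e ^ 2 := by
    linear_combination -hrel + 4 * hB8 - B2 * hB6 + (B4 + w ^ 2 - e) * hB4
  -- Tate normal form parameters
  obtain ⟨v, hv⟩ : ∃ v, v = e / w := ⟨_, rfl⟩
  obtain ⟨b, hb⟩ : ∃ b, b = w ^ 2 / e := ⟨_, rfl⟩
  obtain ⟨ζ, hζ⟩ : ∃ ζ, ζ = z * w / e := ⟨_, rfl⟩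
  have hv0 : v ≠ 0 := by rw [hv]; exact div_ne_zero he0 hw0
  have hb0 : b ≠ 0 := by rw [hb]; exact div_ne_zero (pow_ne_zero 2 hw0) he0
  have ew : w = v * b := by rw [hv, hb]; field_simp
  have ee : e = v ^ 2 * b := by rw [hv, hb]; field_simp
  have ez : z = v * ζ := by rw [hv, hζ]; field_simp
  have eB4 : B4 = v ^ 2 * (b ^ 2 - b) := by
    linear_combination hB4 + (w + v * b) * ew - ee
  have eB6 : B6 = v ^ 3 * b ^ 2 := by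
    linear_combination hB6 + e * ew + v * b * ee
  have eB8 : B8 = -(v ^ 4 * b ^ 3) := by
    linear_combination hB8 - (w + v * b) * e * ew - v ^ 2 * b ^ 2 * ee
  have eB2 : B2 = v * (b ^ 2 - 6 * b + 1) := by
    have hne0 : v ^ 3 * b ^ 2 ≠ 0 := mul_ne_zero (pow_ne_zero 3 hv0) (pow_ne_zero 2 hb0)
    apply mul_right_cancel₀ hne0
    rw [ew, ee] at hB2
    linear_combination hB2
  have hΨ : 3 * ζ ^ 4 + (b ^ 2 - 6 * b + 1) * ζ ^ 3 + 3 * (b ^ 2 - b) * ζ ^ 2 + 3 * b ^ 2 * ζ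
      - b ^ 3 = 0 := by
    have h0 : B8 + 3 * z * B6 + 3 * z ^ 2 * B4 + z ^ 3 * B2 + 3 * z ^ 4 = 0 := by
      rw [← e80]; exact h3
    rw [eB8, eB6, eB4, eB2, ez] at h0
    have h4 : v ^ 4 * (3 * ζ ^ 4 + (b ^ 2 - 6 * b + 1) * ζ ^ 3 + 3 * (b ^ 2 - b) * ζ ^ 2
        + 3 * b ^ 2 * ζ - b ^ 3) = 0 := by linear_combination h0
    exact (mul_eq_zero.mp h4).resolve_left (pow_ne_zero 4 hv0)
  have hκ : (x₀ - x₁) * (x₀ - x₂) = v ^ 2 * (ζ * (ζ - b)) := by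
    have h : (x₀ - x₁) * (x₀ - x₂) = z * (z - w) := by rw [hz, hw]; ring
    rw [h, ez, ew]; ring
  have hD : (x₁ - x₂) ^ 2 = v ^ 2 * b ^ 2 := by
    have h : (x₁ - x₂) ^ 2 = w ^ 2 := by rw [hw]; ring
    rw [h, ew]; ring
  have hβ : tB6 E x₀ = v ^ 3 * (b ^ 2 + 2 * ζ * (b ^ 2 - b) + ζ ^ 2 * (b ^ 2 - 6 * b + 1)
      + 4 * ζ ^ 3) := by
    rw [e60, eB6, eB4, eB2, ez]; ring
  have hΔ' : E.Δ = v ^ 6 * (b ^ 5 * (b ^ 2 - 11 * b - 1)) := by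
    rw [eΔ, eB8, eB6, eB4, eB2]; ring
  rw [hκ, hD, hβ, hΔ']
  linear_combination (v ^ 24 * (-b^18*ζ^5 + 9*b^17*ζ^6 + 48*b^17*ζ^5 + 50*b^17*ζ^4 + 51*b^17*ζ^3 + 28*b^17*ζ^2 + 8*b^17*ζ + b^17 - 9*b^16*ζ^7 - 205*b^16*ζ^6 - 528*b^16*ζ^5 - 524*b^16*ζ^4 - 352*b^16*ζ^3 - 117*b^16*ζ^2 - 14*b^16*ζ + 274*b^15*ζ^7 + 1768*b^15*ζ^6 + 2405*b^15*ζ^5 + 1802*b^15*ζ^4 + 582*b^15*ζ^3 + 64*b^15*ζ^2 - 117*b^14*ζ^8 - 2664*b^14*ζ^7 - 6117*b^14*ζ^6 - 4760*b^14*ζ^5 - 1435*b^14*ζ^4 - 145*b^14*ζ^3 + 1886*b^13*ζ^8 + 9164*b^13*ζ^7 + 7080*b^13*ζ^6 + 1980*b^13*ζ^5 + 185*b^13*ζ^4 - 512*b^12*ζ^9 - 8051*b^12*ζ^8 - 6008*b^12*ζ^7 - 1563*b^12*ζ^6 - 136*b^12*ζ^5 + 3840*b^11*ζ^9 + 2722*b^11*ζ^8 + 662*b^11*ζ^7 + 54*b^11*ζ^6 - 768*b^10*ζ^10 - 512*b^10*ζ^9 - 117*b^10*ζ^8 - 9*b^10*ζ^7)) * hΨ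

/-- a root of `ψ₃` is not a root of `ψ₂²` when `Δ ≠ 0` -/
theorem tB6_ne_zero_of_tB8 (E : WeierstrassCurve K) (x : K) (hΔ : E.Δ ≠ 0) (h3 : tB8 E x = 0) :
    tB6 E x ≠ 0 := by
  intro h6
  apply hΔ
  have hrel := tB_relation E x
  rw [h3, h6] at hrel
  have h4 : tB4 E x = 0 := by
    have : tB4 E x ^ 2 = 0 := by linear_combination hrel
    exact pow_eq_zero_iff (by norm_num) |>.mp this
  rw [Δ_eq_tB E x, h3, h6, h4]; ring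

/-- `j = j₃(t)` in polynomial form, for `x` a root of `ψ₃`. -/
theorem id2_field (E : WeierstrassCurve K) (x : K) (h3 : tB8 E x = 0) :
    E.c₄ ^ 3 * tB6 E x ^ 6 =
      (E.Δ + 27 * tB6 E x ^ 2) * (E.Δ + 3 * tB6 E x ^ 2) ^ 3 := by
  have hrel := tB_relation E x
  rw [h3] at hrel
  have hr : tB2 E x * tB6 E x - tB4 E x ^ 2 = 0 := by linear_combination -hrel
  rw [c₄_eq_tB E x, Δ_eq_tB E x, h3]
  obtain ⟨B2, hB2⟩ : ∃ B2, B2 = tB2 E x := ⟨_, rfl⟩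
  obtain ⟨B4, hB4⟩ : ∃ B4, B4 = tB4 E x := ⟨_, rfl⟩
  obtain ⟨B6, hB6⟩ : ∃ B6, B6 = tB6 E x := ⟨_, rfl⟩
  rw [← hB2, ← hB4, ← hB6] at hr ⊢
  linear_combination (B2^5*B6^5 + B2^4*B4^2*B6^4 - 6560*B2^3*B4^4*B6^3 - 72*B2^3*B4*B6^5 + 16768*B2^2*B4^6*B6^2 + 52416*B2^2*B4^3*B6^4 - 14336*B2*B4^8*B6 - 87552*B2*B4^5*B6^3 - 138240*B2*B4^2*B6^5 + 4096*B4^10 + 36864*B4^7*B6^2 + 110592*B4^4*B6^4 + 124416*B4*B6^6) * hr

end field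

/-- arithmetic end game: `A c³ = B d`, `5 ∤ A`, `5 ∣ B`, `125 ∤ B` force `5 ∣ c` and `5 ∣ d`. -/
theorem five_dvd_both (c d A B : ℤ) (h : A * c ^ 3 = B * d) (hA : ¬ (5 : ℤ) ∣ A)
    (hB : (5 : ℤ) ∣ B) (hB' : ¬ (125 : ℤ) ∣ B) : (5 : ℤ) ∣ c ∧ (5 : ℤ) ∣ d := by
  have hp : Prime (5 : ℤ) := by norm_num
  have hc : (5 : ℤ) ∣ c := by
    have h1 : (5 : ℤ) ∣ A * c ^ 3 := by rw [h]; exact Dvd.dvd.mul_right hB d
    rcases hp.dvd_or_dvd h1 with h2 | h2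
    · exact absurd h2 hA
    · exact hp.dvd_of_dvd_pow h2
  refine ⟨hc, ?_⟩
  by_contra hd
  apply hB'
  have hcop : IsCoprime ((5 : ℤ) ^ 3) d :=
    IsCoprime.pow_left ((Prime.coprime_iff_not_dvd hp).mpr hd)
  have h125 : ((5 : ℤ) ^ 3) ∣ B * d := by
    rw [← h]
    exact Dvd.dvd.mul_left (pow_dvd_pow_of_dvd hc 3) A
  have := hcop.dvd_of_dvd_mul_right h125
  norm_num at this
  exact this

/-- Main algebraic statement, with the list of rational points of `X_0(15)` as a hypothesis. -/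
theorem false_of_data_aux
    (hlam : ∀ l w : ℚ, l ≠ 0 → w ^ 2 = l * (9 * l - 4) * (4 * l + 1) →
      l = 1 ∨ l = -1 / 4 ∨ l = 4 / 9 ∨ l = -1 / 9)
    (W : WeierstrassCurve ℤ) (hΔ : W.Δ ≠ 0)
    (h5 : (5 : ℤ) ∣ W.Δ → ¬ (5 : ℤ) ∣ W.c₄)
    (x₀ : ℚ) (h3 : tB8 (WQ W) x₀ = 0)
    (s m : ℚ) (x₁ x₂ : AlgebraicClosure ℚ)
    (hs : x₁ + x₂ = algebraMap ℚ (AlgebraicClosure ℚ) s)
    (hm : x₁ * x₂ = algebraMap ℚ (AlgebraicClosure ℚ) m) (hne : x₁ ≠ x₂)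
    (h61 : tB6 (WK W) x₁ ≠ 0) (h62 : tB6 (WK W) x₂ ≠ 0)
    (hd1 : (x₂ - x₁) * tB6 (WK W) x₁ = - tB8 (WK W) x₁)
    (hd2 : (x₁ - x₂) * tB6 (WK W) x₂ = - tB8 (WK W) x₂) : False := by
  obtain ⟨ι, hιd⟩ : ∃ ι : ℚ →+* AlgebraicClosure ℚ, ι = algebraMap ℚ (AlgebraicClosure ℚ) :=
    ⟨_, rfl⟩
  have hι : Function.Injective ι := ι.injective
  rw [← hιd] at hs hm
  have hWK : WK W = (WQ W).map ι := by rw [hιd]
  rw [hWK] at h61 h62 hd1 hd2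
  -- rational invariants
  obtain ⟨κ, hκd⟩ : ∃ κ : ℚ, κ = x₀ ^ 2 - s * x₀ + m := ⟨_, rfl⟩
  obtain ⟨D, hDd⟩ : ∃ D : ℚ, D = s ^ 2 - 4 * m := ⟨_, rfl⟩
  obtain ⟨β, hβd⟩ : ∃ β : ℚ, β = tB6 (WQ W) x₀ := ⟨_, rfl⟩
  obtain ⟨Δq, hΔd⟩ : ∃ Δq : ℚ, Δq = (W.Δ : ℚ) := ⟨_, rfl⟩
  obtain ⟨c, hcd⟩ : ∃ c : ℚ, c = (W.c₄ : ℚ) := ⟨_, rfl⟩
  have hΔq : (WQ W).Δ = Δq := by rw [hΔd, WeierstrassCurve.map_Δ]; rfl
  have hcq : (WQ W).c₄ = c := by rw [hcd, WeierstrassCurve.map_c₄]; rfl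
  have hΔq0 : Δq ≠ 0 := by rw [hΔd]; exact_mod_cast hΔ
  have hΔK : ((WQ W).map ι).Δ = ι Δq := by rw [WeierstrassCurve.map_Δ, hΔq]
  have h3K : tB8 ((WQ W).map ι) (ι x₀) = 0 := by
    rw [(tB_map ι (WQ W) x₀).2.2.2, h3, map_zero]
  have hβK : tB6 ((WQ W).map ι) (ι x₀) = ι β := by
    rw [(tB_map ι (WQ W) x₀).2.2.1, hβd]
  have hκK : (ι x₀ - x₁) * (ι x₀ - x₂) = ι κ := by
    rw [hκd, map_add, map_sub, map_mul, map_pow, ← hs, ← hm]; ring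
  have hDK : (x₁ - x₂) ^ 2 = ι D := by
    rw [hDd, map_sub, map_mul, map_pow, ← hs, ← hm, map_ofNat]; ring
  -- nonvanishing
  have hD0 : D ≠ 0 := by
    intro h
    rw [h, map_zero] at hDK
    exact hne (sub_eq_zero.mp (pow_eq_zero_iff (by norm_num) |>.mp hDK))
  have hβ0 : β ≠ 0 := by
    rw [hβd]; exact tB6_ne_zero_of_tB8 (WQ W) x₀ (by rw [hΔq]; exact hΔq0) h3
  have hκ0 : κ ≠ 0 := by
    intro h
    rw [h, map_zero] at hκK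
    rcases mul_eq_zero.mp hκK with h0 | h0
    · have hx : ι x₀ = x₁ := sub_eq_zero.mp h0
      rw [hx] at h3K
      rw [h3K, neg_zero] at hd1
      rcases mul_eq_zero.mp hd1 with h1 | h1
      · exact hne (sub_eq_zero.mp h1).symm
      · exact h61 h1
    · have hx : ι x₀ = x₂ := sub_eq_zero.mp h0
      rw [hx] at h3K
      rw [h3K, neg_zero] at hd2
      rcases mul_eq_zero.mp hd2 with h1 | h1
      · exact hne (sub_eq_zero.mp h1)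
      · exact h62 h1
  -- the two identities over ℚ
  have hId1 : κ ^ 5 * (κ - D) * Δq ^ 2 - 5 * κ ^ 3 * D ^ 3 * β ^ 2 * Δq
      - (9 * κ + D) * D ^ 5 * β ^ 4 = 0 := by
    have h := id1_field ((WQ W).map ι) x₁ x₂ (ι x₀) hne h61 hd1 hd2 h3K
    rw [hκK, hDK, hβK, hΔK] at h
    apply hι
    rw [map_zero, ← h]
    simp only [map_sub, map_mul, map_pow, map_add, map_ofNat]
  have hId2 : c ^ 3 * β ^ 6 = (Δq + 27 * β ^ 2) * (Δq + 3 * β ^ 2) ^ 3 := by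
    have h := id2_field (WQ W) x₀ h3
    rw [hcq, hΔq, ← hβd] at h
    exact h
  -- the point of X_0(15)
  obtain ⟨l, hl⟩ : ∃ l : ℚ, l = κ / D := ⟨_, rfl⟩
  obtain ⟨t, ht⟩ : ∃ t : ℚ, t = Δq / β ^ 2 := ⟨_, rfl⟩
  have hl0 : l ≠ 0 := by rw [hl]; exact div_ne_zero hκ0 hD0
  have ht0 : t ≠ 0 := by rw [ht]; exact div_ne_zero hΔq0 (pow_ne_zero 2 hβ0)
  have hκl : κ = l * D := by rw [hl]; field_simp
  have hΔt : Δq = t * β ^ 2 := by rw [ht]; field_simp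
  have hQ : l ^ 5 * (l - 1) * t ^ 2 - 5 * l ^ 3 * t - (9 * l + 1) = 0 := by
    have h : D ^ 6 * β ^ 4 * (l ^ 5 * (l - 1) * t ^ 2 - 5 * l ^ 3 * t - (9 * l + 1)) = 0 := by
      rw [hκl, hΔt] at hId1
      linear_combination hId1
    exact (mul_eq_zero.mp h).resolve_left
      (mul_ne_zero (pow_ne_zero 6 hD0) (pow_ne_zero 4 hβ0))
  have hJ : c ^ 3 * t = (t + 27) * (t + 3) ^ 3 * Δq := by
    have h : β ^ 6 * (c ^ 3 * t - (t + 27) * (t + 3) ^ 3 * Δq) = 0 := by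
      rw [hΔt] at hId2 ⊢
      linear_combination t * hId2
    have := (mul_eq_zero.mp h).resolve_left (pow_ne_zero 6 hβ0)
    linear_combination this
  have hnum : (2 * l ^ 5 * (l - 1) * t - 5 * l ^ 3) ^ 2
      = (l * (9 * l - 4) * (4 * l + 1)) * (l ^ 2) ^ 2 := by
    linear_combination (4 * l ^ 5 * (l - 1)) * hQ
  have hw : ((2 * l ^ 5 * (l - 1) * t - 5 * l ^ 3) / l ^ 2) ^ 2
      = l * (9 * l - 4) * (4 * l + 1) := by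
    rw [div_pow, hnum]
    exact mul_div_cancel_right₀ _ (pow_ne_zero 2 (pow_ne_zero 2 hl0))
  -- integer forms
  have hcZ : c = ((W.c₄ : ℤ) : ℚ) := hcd
  have hΔZ : Δq = ((W.Δ : ℤ) : ℚ) := hΔd
  have hfin : ∀ A B : ℤ, (A : ℚ) * c ^ 3 = (B : ℚ) * Δq → ¬ (5 : ℤ) ∣ A → (5 : ℤ) ∣ B →
      ¬ (125 : ℤ) ∣ B → False := by
    intro A B hAB hA hB hB'
    have hZ : A * W.c₄ ^ 3 = B * W.Δ := by
      rw [hcZ, hΔZ] at hAB
      exact_mod_cast hAB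
    obtain ⟨h1, h2⟩ := five_dvd_both _ _ _ _ hZ hA hB hB'
    exact h5 h2 h1
  rcases hlam l _ hl0 hw with h | h | h | h
  · -- l = 1, t = -2
    have ht2 : t = -2 := by
      rw [h] at hQ
      linarith
    rw [ht2] at hJ
    refine hfin (-2) 25 ?_ (by norm_num) (by norm_num) (by norm_num)
    push_cast
    linear_combination hJ
  · -- l = -1/4, t = -32
    have ht2 : t = -32 := by
      rw [h] at hQ
      have h' : (t + 32) ^ 2 = 0 := by linear_combination (4096 / 5 : ℚ) * hQ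
      have := pow_eq_zero_iff (n := 2) (by norm_num) |>.mp h'
      linarith
    rw [ht2] at hJ
    refine hfin (-32) 121945 ?_ (by norm_num) (by norm_num) (by norm_num)
    push_cast
    linear_combination hJ
  · -- l = 4/9, t = -729/32
    have ht2 : t = -729 / 32 := by
      rw [h] at hQ
      have h' : (32 * t + 729) ^ 2 = 0 := by linear_combination (-531441 / 5 : ℚ) * hQ
      have := pow_eq_zero_iff (n := 2) (by norm_num) |>.mp h'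
      linarith
    rw [ht2] at hJ
    refine hfin (729 * 32768) (135 * 633 ^ 3) ?_ (by norm_num) (by norm_num) (by norm_num)
    push_cast
    linear_combination (-1048576 : ℚ) * hJ
  · -- l = -1/9, t = -729/2
    have ht2 : t = -729 / 2 := by
      rw [h] at hQ
      have h' : t * (2 * t + 729) = 0 := by linear_combination (531441 / 5 : ℚ) * hQ
      rcases mul_eq_zero.mp h' with h0 | h0
      · exact absurd h0 ht0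
      · linarith
    rw [ht2] at hJ
    refine hfin (-729 * 8) (675 * 723 ^ 3) ?_ (by norm_num) (by norm_num) (by norm_num)
    push_cast
    linear_combination (16 : ℚ) * hJ

end Fermat.Agent.S51Lib
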