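import Mathlib
import Fermat.Prelude.Def_FLTPrelim_ModularRep
import Fermat.Prelude.Def_FLTPrelim_Ramification

/-!
# S51 shared definitions: translated `b`-invariants

For a Weierstrass curve `W` and a value `x`, `tB2 W x, tB4 W x, tB6 W x, tB8 W x` are the
`b`-invariants of the curve translated by `x`.  Classical meaning, for a point `P = (x, y)`:
`tB6 W x = ψ₂(P)^2 = (2y + a₁x + a₃)^2`, `tB8 W x = ψ₃(x)` (the 3-division polynomial) and
`x(2P) = x - tB8 W x / tB6 W x`.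
-/

set_option autoImplicit false

namespace Fermat.Agent.S51Lib

variable {R : Type*} [CommRing R]

/-- translated `b₂` -/
def tB2 (W : WeierstrassCurve R) (x : R) : R := W.b₂ + 12 * x

/-- translated `b₄` -/
def tB4 (W : WeierstrassCurve R) (x : R) : R := W.b₄ + x * W.b₂ + 6 * x ^ 2

/-- translated `b₆`; equals `ψ₂²` at a point with abscissa `x` -/
def tB6 (W : WeierstrassCurve R) (x : R) : R :=
  W.b₆ + 2 * x * W.b₄ + x ^ 2 * W.b₂ + 4 * x ^ 3

/-- translated `b₈`; equals the 3-division polynomial at `x` -/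
def tB8 (W : WeierstrassCurve R) (x : R) : R :=
  W.b₈ + 3 * x * W.b₆ + 3 * x ^ 2 * W.b₄ + x ^ 3 * W.b₂ + 3 * x ^ 4

theorem tB_relation (W : WeierstrassCurve R) (x : R) :
    4 * tB8 W x = tB2 W x * tB6 W x - tB4 W x ^ 2 := by
  simp only [tB2, tB4, tB6, tB8]
  linear_combination (1 + 0 * x) * W.b_relation

theorem tB2_add (W : WeierstrassCurve R) (x h : R) : tB2 W (x + h) = tB2 W x + 12 * h := by
  simp only [tB2]; ring

theorem tB4_add (W : WeierstrassCurve R) (x h : R) :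
    tB4 W (x + h) = tB4 W x + h * tB2 W x + 6 * h ^ 2 := by
  simp only [tB2, tB4]; ring

theorem tB6_add (W : WeierstrassCurve R) (x h : R) :
    tB6 W (x + h) = tB6 W x + 2 * h * tB4 W x + h ^ 2 * tB2 W x + 4 * h ^ 3 := by
  simp only [tB2, tB4, tB6]; ring

theorem tB8_add (W : WeierstrassCurve R) (x h : R) :
    tB8 W (x + h) =
      tB8 W x + 3 * h * tB6 W x + 3 * h ^ 2 * tB4 W x + h ^ 3 * tB2 W x + 3 * h ^ 4 := by
  simp only [tB2, tB4, tB6, tB8]; ring

theorem c₄_eq_tB (W : WeierstrassCurve R) (x : R) : W.c₄ = tB2 W x ^ 2 - 24 * tB4 W x := by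
  simp only [tB2, tB4, WeierstrassCurve.c₄]; ring

theorem Δ_eq_tB (W : WeierstrassCurve R) (x : R) :
    W.Δ = -tB2 W x ^ 2 * tB8 W x - 8 * tB4 W x ^ 3 - 27 * tB6 W x ^ 2
      + 9 * tB2 W x * tB4 W x * tB6 W x := by
  simp only [tB2, tB4, tB6, tB8, WeierstrassCurve.Δ]
  linear_combination (6 * x * W.b₂ + 36 * x ^ 2) * W.b_relation

theorem tB_map {S : Type*} [CommRing S] (f : R →+* S) (W : WeierstrassCurve R) (x : R) :
    tB2 (W.map f) (f x) = f (tB2 W x) ∧ tB4 (W.map f) (f x) = f (tB4 W x) ∧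
      tB6 (W.map f) (f x) = f (tB6 W x) ∧ tB8 (W.map f) (f x) = f (tB8 W x) := by
  simp only [tB2, tB4, tB6, tB8, WeierstrassCurve.map_b₂, WeierstrassCurve.map_b₄,
    WeierstrassCurve.map_b₆, WeierstrassCurve.map_b₈, map_add, map_mul, map_pow, map_ofNat,
    and_self]

end Fermat.Agent.S51Lib
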