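import Mathlib

/-!
# S51, descent part: from a rational point of `9 t (1 + w²) = w (1 + t²)` to an integer quadruple

If `t = q / p` and `w = s / r` are in lowest terms, `t ≠ 0`, and
`9 t (1 + w ^ 2) = w (1 + t ^ 2)`, then `r s = 9 p q` and `r² + s² = p² + q²`.
-/

set_option autoImplicit false

namespace Fermat.Agent.S51Lib.DescentQuad

/-- sums of two squares mod `3` -/
theorem zmod3_sq_add_sq : ∀ a b : ZMod 3, a ^ 2 + b ^ 2 = 0 → a = 0 ∧ b = 0 := by decide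

/-- `3 ∣ p² + q²` forces `3 ∣ p` and `3 ∣ q` -/
theorem three_dvd_of_sq_add_sq (p q : ℤ) (h : (3 : ℤ) ∣ p ^ 2 + q ^ 2) :
    (3 : ℤ) ∣ p ∧ (3 : ℤ) ∣ q := by
  have h0 : ((p : ZMod 3)) ^ 2 + ((q : ZMod 3)) ^ 2 = 0 := by
    have := (ZMod.intCast_zmod_eq_zero_iff_dvd (p ^ 2 + q ^ 2) 3).2 (by exact_mod_cast h)
    simpa using this
  obtain ⟨h1, h2⟩ := zmod3_sq_add_sq _ _ h0
  exact ⟨by exact_mod_cast (ZMod.intCast_zmod_eq_zero_iff_dvd p 3).1 h1,
    by exact_mod_cast (ZMod.intCast_zmod_eq_zero_iff_dvd q 3).1 h2⟩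

/-- coprime integers are not both divisible by `3` -/
theorem not_three_dvd_sq_add_sq (p q : ℤ) (hpq : IsCoprime p q) :
    ¬ (3 : ℤ) ∣ p ^ 2 + q ^ 2 := by
  intro h
  obtain ⟨h1, h2⟩ := three_dvd_of_sq_add_sq p q h
  have h3 : IsUnit (3 : ℤ) := hpq.isUnit_of_dvd' h1 h2
  rw [Int.isUnit_iff] at h3
  omega

/-- `q p` is coprime to `p² + q²` when `p, q` are coprime -/
theorem isCoprime_mul_sq_add_sq (p q : ℤ) (hpq : IsCoprime p q) :
    IsCoprime (q * p) (p ^ 2 + q ^ 2) := by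
  apply IsCoprime.mul_left
  · have h1 : IsCoprime q (p ^ 2) := hpq.symm.pow_right
    have h2 : IsCoprime q (p ^ 2 + q * q) := h1.add_mul_left_right q
    have e : p ^ 2 + q ^ 2 = p ^ 2 + q * q := by ring
    rw [e]; exact h2
  · have h1 : IsCoprime p (q ^ 2) := hpq.pow_right
    have h2 : IsCoprime p (q ^ 2 + p * p) := h1.add_mul_left_right p
    have e : p ^ 2 + q ^ 2 = q ^ 2 + p * p := by ring
    rw [e]; exact h2

/-- the integer core of `quad_of_rat` -/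
theorem quad_of_int (p q r s : ℤ) (hpq : IsCoprime p q) (hrs : IsCoprime r s)
    (hp : p ≠ 0) (hq : q ≠ 0) (hr : r ≠ 0)
    (h : 9 * (q * p) * (r ^ 2 + s ^ 2) = s * r * (p ^ 2 + q ^ 2)) :
    s * r = 9 * (q * p) ∧ r ^ 2 + s ^ 2 = p ^ 2 + q ^ 2 := by
  have hqp : q * p ≠ 0 := mul_ne_zero hq hp
  have h1 : IsCoprime (q * p) (p ^ 2 + q ^ 2) := isCoprime_mul_sq_add_sq p q hpq
  have h2 : IsCoprime (s * r) (r ^ 2 + s ^ 2) := isCoprime_mul_sq_add_sq r s hrs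
  have d1 : q * p ∣ s * r := by
    apply h1.dvd_of_dvd_mul_right
    rw [← h]
    exact ⟨9 * (r ^ 2 + s ^ 2), by ring⟩
  have d2 : s * r ∣ 9 * (q * p) := by
    apply h2.dvd_of_dvd_mul_right
    rw [h]
    exact ⟨p ^ 2 + q ^ 2, rfl⟩
  obtain ⟨k, hk⟩ := d1
  have hk9 : k ∣ 9 := by
    rw [hk] at d2
    have d3 : q * p * k ∣ q * p * 9 := by rw [mul_comm (q * p) 9]; exact d2
    exact (mul_dvd_mul_iff_left hqp).1 d3
  have hmain : 9 * (r ^ 2 + s ^ 2) = k * (p ^ 2 + q ^ 2) := by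
    have : q * p * (9 * (r ^ 2 + s ^ 2)) = q * p * (k * (p ^ 2 + q ^ 2)) := by
      rw [hk] at h; linear_combination h
    exact mul_left_cancel₀ hqp this
  have hpos1 : 0 < r ^ 2 + s ^ 2 := by positivity
  have hpos2 : 0 < p ^ 2 + q ^ 2 := by positivity
  have hkpos : 0 < k := by
    by_contra hneg
    have : k ≤ 0 := not_lt.1 hneg
    nlinarith
  have hkle : k ≤ 9 := Int.le_of_dvd (by norm_num) hk9
  have n3 : ¬ (3 : ℤ) ∣ p ^ 2 + q ^ 2 := not_three_dvd_sq_add_sq p q hpq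
  interval_cases k
  · exfalso; apply n3; exact ⟨3 * (r ^ 2 + s ^ 2), by linarith⟩
  · exfalso; omega
  · exfalso; apply n3; exact ⟨r ^ 2 + s ^ 2, by linarith⟩
  · exfalso; omega
  · exfalso; omega
  · exfalso; omega
  · exfalso; omega
  · exfalso; omega
  · exact ⟨by rw [hk]; ring, by linarith⟩

/-- **quadruple from a rational point** of the curve `9 t (1 + w²) = w (1 + t²)` -/
theorem quad_of_rat (t w : ℚ) (ht : t ≠ 0) (h : 9 * t * (1 + w ^ 2) = w * (1 + t ^ 2)) :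
    w.num * (w.den : ℤ) = 9 * (t.num * (t.den : ℤ)) ∧
      (w.den : ℤ) ^ 2 + w.num ^ 2 = (t.den : ℤ) ^ 2 + t.num ^ 2 := by
  have hp : (t.den : ℤ) ≠ 0 := by exact_mod_cast t.den_nz
  have hq : t.num ≠ 0 := Rat.num_ne_zero.2 ht
  have hr : (w.den : ℤ) ≠ 0 := by exact_mod_cast w.den_nz
  have hpq : IsCoprime (t.den : ℤ) t.num := by
    have h1 : Nat.Coprime t.num.natAbs t.den := t.reduced
    have h2 : IsCoprime t.num (t.den : ℤ) := by
      rw [Int.isCoprime_iff_gcd_eq_one, Int.gcd_eq_natAbs]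
      simpa using h1
    exact h2.symm
  have hrs : IsCoprime (w.den : ℤ) w.num := by
    have h1 : Nat.Coprime w.num.natAbs w.den := w.reduced
    have h2 : IsCoprime w.num (w.den : ℤ) := by
      rw [Int.isCoprime_iff_gcd_eq_one, Int.gcd_eq_natAbs]
      simpa using h1
    exact h2.symm
  have key : 9 * (t.num * (t.den : ℤ)) * ((w.den : ℤ) ^ 2 + w.num ^ 2) =
      w.num * (w.den : ℤ) * ((t.den : ℤ) ^ 2 + t.num ^ 2) := by
    have e1 : t * (t.den : ℚ) = (t.num : ℚ) := Rat.mul_den_eq_num t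
    have e2 : w * (w.den : ℚ) = (w.num : ℚ) := Rat.mul_den_eq_num w
    have : (9 * ((t.num : ℚ) * (t.den : ℚ)) * ((w.den : ℚ) ^ 2 + (w.num : ℚ) ^ 2) : ℚ) =
        (w.num : ℚ) * (w.den : ℚ) * ((t.den : ℚ) ^ 2 + (t.num : ℚ) ^ 2) := by
      rw [← e1, ← e2]
      linear_combination ((t.den : ℚ) ^ 2 * (w.den : ℚ) ^ 2) * h
    exact_mod_cast this
  exact quad_of_int _ _ _ _ hpq hrs hp hq hr key

end Fermat.Agent.S51Lib.DescentQuad
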