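import Mathlib
import Fermat.Agent.S51Lib.DescentQuad

/-!
# S51, descent part: the curve `v² = u (u - 1) (u - 81)` has only its 2-torsion points

Fermat descent.  A rational point with `v ≠ 0` gives a rational point `(t, w)`, `t ≠ 0`, of
`9 t (1 + w²) = w (1 + t²)`, i.e. (`DescentQuad.quad_of_rat`) coprime pairs `(p, q)`, `(r, s)`
with `r s = 9 p q` and `r² + s² = p² + q²`.  After the four-number decomposition
`p = α β`, `q = γ δ`, `r = 9 α γ`, `s = β δ` one gets `δ² - α² = k γ²`, `δ² - 81 α² = k β²`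
with `k ∣ 80`, `v₂(k)` even, and in each of the four square classes of `k` a solution of
`A² - e² = B²`, `A² - 81 e² = C²` with `|e| < |p q|`, hence a smaller quadruple.
-/

set_option autoImplicit false

namespace Fermat.Agent.S51Lib.DescentCore

/-- Four-number decomposition of `r * s = p * q`. -/
lemma four_numbers (p q r s : ℤ) (hp : p ≠ 0) (h : r * s = p * q) :
    ∃ α β γ δ : ℤ, p = α * β ∧ q = γ * δ ∧ r = α * γ ∧ s = β * δ := by
  obtain ⟨g, hg, β, hβ, γ, hγ, x, y, hb⟩ : ∃ g : ℤ, g ≠ 0 ∧ ∃ β, p = g * β ∧ ∃ γ, r = g * γ ∧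
      ∃ x y, g = p * x + r * y := by
    refine ⟨Int.gcd p r, ?_, ?_⟩
    · intro h0
      have := Int.gcd_eq_zero_iff.mp (by exact_mod_cast h0 : Int.gcd p r = 0)
      exact hp this.1
    · obtain ⟨β, hβ⟩ : (Int.gcd p r : ℤ) ∣ p := Int.gcd_dvd_left ..
      obtain ⟨γ, hγ⟩ : (Int.gcd p r : ℤ) ∣ r := Int.gcd_dvd_right ..
      exact ⟨β, hβ, γ, hγ, _, _, Int.gcd_eq_gcd_ab p r⟩
  subst hβ hγ
  have hβ0 : β ≠ 0 := by
    rintro rfl
    apply hp
    rw [mul_zero]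
  have hcop : IsCoprime β γ := by
    refine ⟨x, y, ?_⟩
    have : g * (x * β + y * γ) = g * 1 := by linear_combination -hb
    exact mul_left_cancel₀ hg this
  have h' : γ * s = β * q := by
    have : g * (γ * s) = g * (β * q) := by linear_combination h
    exact mul_left_cancel₀ hg this
  have hdvd : β ∣ s := by
    apply hcop.dvd_of_dvd_mul_left
    exact ⟨q, h'⟩
  obtain ⟨δ, hδ⟩ := hdvd
  refine ⟨g, β, γ, δ, rfl, ?_, rfl, hδ⟩
  have : β * q = β * (γ * δ) := by rw [← h', hδ]; ring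
  exact mul_left_cancel₀ hβ0 this

/-- The square of an odd integer is `1` mod `8`. -/
lemma odd_sq (x : ℤ) (hx : Odd x) : ∃ m : ℤ, x ^ 2 = 8 * m + 1 := by
  obtain ⟨a, rfl⟩ := hx
  obtain ⟨m, hm⟩ := Int.even_mul_succ_self a
  exact ⟨m, by linear_combination 4 * hm⟩

lemma even_sq (x : ℤ) (hx : Even x) : ∃ m : ℤ, x ^ 2 = 4 * m := by
  obtain ⟨a, rfl⟩ := hx
  exact ⟨a ^ 2, by ring⟩

lemma not_both_even {a b : ℤ} (h : IsCoprime a b) (ha : Even a) (hb : Even b) : False := by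
  have h2 : IsUnit (2 : ℤ) :=
    h.isUnit_of_dvd' (even_iff_two_dvd.mp ha) (even_iff_two_dvd.mp hb)
  rw [Int.isUnit_iff] at h2
  omega

/-- If `k` is even then `α` and `δ` are odd. -/
lemma odd_of_even_k (α γ δ k : ℤ) (hαδ : IsCoprime α δ)
    (h1 : δ ^ 2 - α ^ 2 = γ ^ 2 * k) (hk : Even k) : Odd α ∧ Odd δ := by
  have hpar : Even (δ ^ 2 - α ^ 2) := by rw [h1]; exact hk.mul_left _
  rw [Int.even_sub, Int.even_pow' two_ne_zero, Int.even_pow' two_ne_zero] at hpar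
  rcases Int.even_or_odd α with ha | ha
  · exact (not_both_even hαδ ha (hpar.mpr ha)).elim
  · refine ⟨ha, ?_⟩
    rw [← Int.not_even_iff_odd] at ha ⊢
    exact fun hd => ha (hpar.mp hd)

/-- `k` cannot be `2 * odd`. -/
lemma two_adic_one (α β γ δ k₁ : ℤ) (hαδ : IsCoprime α δ) (hβγ : IsCoprime β γ)
    (h1 : δ ^ 2 - α ^ 2 = γ ^ 2 * (2 * k₁)) (h2 : δ ^ 2 - 81 * α ^ 2 = β ^ 2 * (2 * k₁))
    (hk : Odd k₁) : False := by
  obtain ⟨ha, hd⟩ := odd_of_even_k α γ δ (2 * k₁) hαδ h1 (even_two_mul k₁)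
  obtain ⟨m, hm⟩ := odd_sq α ha
  obtain ⟨n, hn⟩ := odd_sq δ hd
  have hk' : ¬ Even k₁ := Int.not_even_iff_odd.mpr hk
  have hg : Even (γ ^ 2 * k₁) := ⟨2 * (n - m), by linarith⟩
  have hb : Even (β ^ 2 * k₁) := ⟨2 * (n - 81 * m - 10), by linarith⟩
  rw [Int.even_mul, Int.even_pow' two_ne_zero] at hg hb
  exact not_both_even hβγ (hb.resolve_right hk') (hg.resolve_right hk')

/-- `k` cannot be `8 * odd`. -/
lemma two_adic_three (α β γ δ k₀ : ℤ) (hαδ : IsCoprime α δ) (hβγ : IsCoprime β γ)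
    (h1 : δ ^ 2 - α ^ 2 = γ ^ 2 * (8 * k₀)) (h2 : δ ^ 2 - 81 * α ^ 2 = β ^ 2 * (8 * k₀))
    (hk : Odd k₀) : False := by
  obtain ⟨ha, hd⟩ := odd_of_even_k α γ δ (8 * k₀) hαδ h1 ⟨4 * k₀, by ring⟩
  obtain ⟨m, hm⟩ := odd_sq α ha
  -- `k₀ * (γ ^ 2 - β ^ 2) = 10 * α ^ 2`
  have h3 : k₀ * (γ ^ 2 - β ^ 2) = 10 * (8 * m + 1) := by linarith
  obtain ⟨j, rfl⟩ := hk
  rcases Int.even_or_odd β with hb | hb <;> rcases Int.even_or_odd γ with hg | hg
  · exact not_both_even hβγ hb hg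
  · obtain ⟨b, hb⟩ := even_sq β hb
    obtain ⟨g, hg⟩ := odd_sq γ hg
    rw [hb, hg] at h3
    have : 2 * (j * (8 * g + 1 - 4 * b) + 4 * g - 2 * b) + 1 = 10 * (8 * m + 1) := by
      linear_combination h3
    omega
  · obtain ⟨b, hb⟩ := odd_sq β hb
    obtain ⟨g, hg⟩ := even_sq γ hg
    rw [hb, hg] at h3
    have : 2 * (j * (4 * g - (8 * b + 1)) + 2 * g - 4 * b - 1) + 1 = 10 * (8 * m + 1) := by
      linear_combination h3
    omega
  · obtain ⟨b, hb⟩ := odd_sq β hb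
    obtain ⟨g, hg⟩ := odd_sq γ hg
    rw [hb, hg] at h3
    have : 8 * ((2 * j + 1) * (g - b)) = 10 * (8 * m + 1) := by
      linear_combination h3
    omega


lemma k_cases (k : ℤ) (hk : k ∣ 80) :
    k = 1 ∨ k = 2 ∨ k = 4 ∨ k = 5 ∨ k = 8 ∨ k = 10 ∨ k = 16 ∨ k = 20 ∨ k = 40 ∨ k = 80 ∨
    k = -1 ∨ k = -2 ∨ k = -4 ∨ k = -5 ∨ k = -8 ∨ k = -10 ∨ k = -16 ∨ k = -20 ∨ k = -40 ∨
    k = -80 := by
  have h1 : k.natAbs ∣ 80 := by
    have := Int.natAbs_dvd_natAbs.mpr hk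
    simpa using this
  have h2 : k.natAbs ∈ Nat.divisors 80 := by simp [h1]
  have h80 : Nat.divisors 80 = {1, 2, 4, 5, 8, 10, 16, 20, 40, 80} := by decide
  rw [h80] at h2
  simp only [Finset.mem_insert, Finset.mem_singleton] at h2
  omega

lemma lt_mul_of_ne (a b c d : ℕ) (ha : 0 < a) (hb : 0 < b) (hc : 0 < c) (hd : 0 < d)
    (hbc : b ≠ c) : a < a * b * c * d := by
  have h2 : 2 ≤ b * c := by
    rcases Nat.lt_or_gt_of_ne hbc with h | h <;> nlinarith
  have h3 : a * 2 ≤ a * (b * c) := Nat.mul_le_mul_left a h2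
  have h4 : a * (b * c) ≤ a * (b * c) * d := Nat.le_mul_of_pos_right _ hd
  calc a < a * 2 := by omega
    _ ≤ a * (b * c) * d := h3.trans h4
    _ = a * b * c * d := by ring

/-- The descent step in terms of the four-number decomposition. -/
lemma greek_step (α β γ δ : ℤ) (hα : α ≠ 0) (hβ : β ≠ 0) (hγ : γ ≠ 0) (hδ : δ ≠ 0)
    (hαδ : IsCoprime α δ) (hβγ : IsCoprime β γ)
    (h : 81 * α ^ 2 * γ ^ 2 + β ^ 2 * δ ^ 2 = α ^ 2 * β ^ 2 + γ ^ 2 * δ ^ 2) :
    ∃ A e B C : ℤ, e ≠ 0 ∧ A ^ 2 - e ^ 2 = B ^ 2 ∧ A ^ 2 - 81 * e ^ 2 = C ^ 2 ∧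
      e.natAbs < (α * β * γ * δ).natAbs := by
  have hγ2 : γ ^ 2 ≠ 0 := pow_ne_zero 2 hγ
  -- `γ ^ 2 ∣ δ ^ 2 - α ^ 2`
  have hdvd : γ ^ 2 ∣ δ ^ 2 - α ^ 2 := by
    have hc : IsCoprime (γ ^ 2) (β ^ 2) := hβγ.symm.pow
    apply hc.dvd_of_dvd_mul_left
    exact ⟨δ ^ 2 - 81 * α ^ 2, by linear_combination h⟩
  obtain ⟨k, h1⟩ := hdvd
  have h2 : δ ^ 2 - 81 * α ^ 2 = β ^ 2 * k := by
    have : γ ^ 2 * (δ ^ 2 - 81 * α ^ 2) = γ ^ 2 * (β ^ 2 * k) := by
      linear_combination -h + β ^ 2 * h1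
    exact mul_left_cancel₀ hγ2 this
  have h3 : k * (γ ^ 2 - β ^ 2) = 80 * α ^ 2 := by linear_combination h2 - h1
  have h4 : k * (81 * γ ^ 2 - β ^ 2) = 80 * δ ^ 2 := by linear_combination h2 - 81 * h1
  have hk0 : k ≠ 0 := by
    rintro rfl
    have : α ^ 2 = 0 := by linarith
    exact hα ((pow_eq_zero_iff (two_ne_zero)).mp this)
  have hk80 : k ∣ 80 := by
    obtain ⟨x, y, hxy⟩ : IsCoprime (α ^ 2) (δ ^ 2) := hαδ.pow
    exact ⟨x * (γ ^ 2 - β ^ 2) + y * (81 * γ ^ 2 - β ^ 2), by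
      linear_combination (-80 : ℤ) * hxy - x * h3 - y * h4⟩
  -- sizes
  have hna : 0 < α.natAbs := Int.natAbs_pos.mpr hα
  have hnb : 0 < β.natAbs := Int.natAbs_pos.mpr hβ
  have hnc : 0 < γ.natAbs := Int.natAbs_pos.mpr hγ
  have hnd : 0 < δ.natAbs := Int.natAbs_pos.mpr hδ
  have hbc : β.natAbs ≠ γ.natAbs := by
    intro hbc
    have : β ^ 2 = γ ^ 2 := by
      rcases Int.natAbs_eq_natAbs_iff.mp hbc with h | h <;> rw [h] <;> ring
    have : α ^ 2 = 0 := by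
      rw [this] at h3; linarith
    exact hα ((pow_eq_zero_iff (two_ne_zero)).mp this)
  have had : α.natAbs ≠ δ.natAbs := by
    intro had
    have : α ^ 2 = δ ^ 2 := by
      rcases Int.natAbs_eq_natAbs_iff.mp had with h | h <;> rw [h] <;> ring
    have : γ ^ 2 * k = 0 := by
      rw [this] at h1; linarith
    rcases mul_eq_zero.mp this with h | h
    · exact hγ2 h
    · exact hk0 h
  have hN : (α * β * γ * δ).natAbs = α.natAbs * β.natAbs * γ.natAbs * δ.natAbs := by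
    simp [Int.natAbs_mul]
  have sα : α.natAbs < (α * β * γ * δ).natAbs := by
    rw [hN]; exact lt_mul_of_ne _ _ _ _ hna hnb hnc hnd hbc
  have sδ : δ.natAbs < (α * β * γ * δ).natAbs := by
    rw [hN, show α.natAbs * β.natAbs * γ.natAbs * δ.natAbs
      = δ.natAbs * β.natAbs * γ.natAbs * α.natAbs by ring]
    exact lt_mul_of_ne _ _ _ _ hnd hnb hnc hna hbc
  have sβ : β.natAbs < (α * β * γ * δ).natAbs := by
    rw [hN, show α.natAbs * β.natAbs * γ.natAbs * δ.natAbs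
      = β.natAbs * α.natAbs * δ.natAbs * γ.natAbs by ring]
    exact lt_mul_of_ne _ _ _ _ hnb hna hnd hnc had
  have sγ : γ.natAbs < (α * β * γ * δ).natAbs := by
    rw [hN, show α.natAbs * β.natAbs * γ.natAbs * δ.natAbs
      = γ.natAbs * α.natAbs * δ.natAbs * β.natAbs by ring]
    exact lt_mul_of_ne _ _ _ _ hnc hna hnd hnb had
  rcases k_cases k hk80 with rfl | rfl | rfl | rfl | rfl | rfl | rfl | rfl | rfl | rfl |
    rfl | rfl | rfl | rfl | rfl | rfl | rfl | rfl | rfl | rfl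
  · exact ⟨δ, α, γ, β, hα, by linarith, by linarith, sα⟩
  · exact (two_adic_one α β γ δ 1 hαδ hβγ (by linarith) (by linarith) (by decide)).elim
  · exact ⟨δ, α, 2 * γ, 2 * β, hα, by linarith, by linarith, sα⟩
  · exact ⟨9 * γ, β, 4 * δ, 36 * α, hβ, by linarith, by linarith, sβ⟩
  · exact (two_adic_three α β γ δ 1 hαδ hβγ (by linarith) (by linarith) (by decide)).elim
  · exact (two_adic_one α β γ δ 5 hαδ hβγ (by linarith) (by linarith) (by decide)).elim
  · exact ⟨δ, α, 4 * γ, 4 * β, hα, by linarith, by linarith, sα⟩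
  · exact ⟨9 * γ, β, 2 * δ, 18 * α, hβ, by linarith, by linarith, sβ⟩
  · exact (two_adic_three α β γ δ 5 hαδ hβγ (by linarith) (by linarith) (by decide)).elim
  · exact ⟨9 * γ, β, δ, 9 * α, hβ, by linarith, by linarith, sβ⟩
  · exact ⟨9 * α, δ, β, 9 * γ, hδ, by linarith, by linarith, sδ⟩
  · exact (two_adic_one α β γ δ (-1) hαδ hβγ (by linarith) (by linarith) (by decide)).elim
  · exact ⟨9 * α, δ, 2 * β, 18 * γ, hδ, by linarith, by linarith, sδ⟩
  · exact ⟨β, γ, 4 * α, 4 * δ, hγ, by linarith, by linarith, sγ⟩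
  · exact (two_adic_three α β γ δ (-1) hαδ hβγ (by linarith) (by linarith) (by decide)).elim
  · exact (two_adic_one α β γ δ (-5) hαδ hβγ (by linarith) (by linarith) (by decide)).elim
  · exact ⟨9 * α, δ, 4 * β, 36 * γ, hδ, by linarith, by linarith, sδ⟩
  · exact ⟨β, γ, 2 * α, 2 * δ, hγ, by linarith, by linarith, sγ⟩
  · exact (two_adic_three α β γ δ (-5) hαδ hβγ (by linarith) (by linarith) (by decide)).elim
  · exact ⟨β, γ, α, δ, hγ, by linarith, by linarith, sγ⟩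


/-- The descent step for a quadruple with `9 ∣ r`. -/
lemma step (p q r s : ℤ) (hp : p ≠ 0) (hq : q ≠ 0) (hpq : IsCoprime p q)
    (h1 : r * s = 9 * (p * q)) (h2 : r ^ 2 + s ^ 2 = p ^ 2 + q ^ 2) (h9 : (9 : ℤ) ∣ r) :
    ∃ A e B C : ℤ, e ≠ 0 ∧ A ^ 2 - e ^ 2 = B ^ 2 ∧ A ^ 2 - 81 * e ^ 2 = C ^ 2 ∧
      e.natAbs < (p * q).natAbs := by
  obtain ⟨r', rfl⟩ := h9
  have h1' : r' * s = p * q := by linarith
  obtain ⟨α, β, γ, δ, rfl, rfl, rfl, rfl⟩ := four_numbers p q r' s hp h1'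
  have hα : α ≠ 0 := left_ne_zero_of_mul hp
  have hβ : β ≠ 0 := right_ne_zero_of_mul hp
  have hγ : γ ≠ 0 := left_ne_zero_of_mul hq
  have hδ : δ ≠ 0 := right_ne_zero_of_mul hq
  have hαδ : IsCoprime α δ := hpq.of_mul_left_left.of_mul_right_right
  have hβγ : IsCoprime β γ := hpq.of_mul_left_right.of_mul_right_left
  obtain ⟨A, e, B, C, he, hB, hC, hlt⟩ := greek_step α β γ δ hα hβ hγ hδ hαδ hβγ
    (by linear_combination h2)
  refine ⟨A, e, B, C, he, hB, hC, ?_⟩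
  rwa [show α * β * (γ * δ) = α * β * γ * δ by ring]

/-- From a solution of `A² - e² = B²`, `A² - 81e² = C²` to a rational point. -/
lemma rat_of_ABC (A e B C : ℤ) (he : e ≠ 0) (hB : A ^ 2 - e ^ 2 = B ^ 2)
    (hC : A ^ 2 - 81 * e ^ 2 = C ^ 2) :
    ∃ t w : ℚ, t ≠ 0 ∧ 9 * t * (1 + w ^ 2) = w * (1 + t ^ 2) ∧
      (t.num * (t.den : ℤ)).natAbs ≤ e.natAbs := by
  have heQ : (e : ℚ) ≠ 0 := by exact_mod_cast he
  have hBQ : (A : ℚ) ^ 2 - e ^ 2 = B ^ 2 := by exact_mod_cast hB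
  have hCQ : (A : ℚ) ^ 2 - 81 * e ^ 2 = C ^ 2 := by exact_mod_cast hC
  have hAB : (A : ℚ) - B ≠ 0 := by
    intro h0
    have : (e : ℚ) ^ 2 = 0 := by
      have : (A : ℚ) = B := by linarith
      rw [this] at hBQ; linarith
    exact heQ ((pow_eq_zero_iff two_ne_zero).mp this)
  set t : ℚ := (A - B) / e with ht
  set w : ℚ := (A - C) / (9 * e) with hw
  have ht0 : t ≠ 0 := div_ne_zero hAB heQ
  refine ⟨t, w, ht0, ?_, ?_⟩
  · rw [ht, hw]
    field_simp
    linear_combination (-(A - B) : ℚ) * hCQ + ((A - C) : ℚ) * hBQ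
  · -- `e * (t ^ 2 + 1) = 2 * A * t`
    have key : (e : ℚ) * (t ^ 2 + 1) = 2 * A * t := by
      rw [ht]
      field_simp
      linear_combination -hBQ
    have hden : (t.den : ℚ) ≠ 0 := by exact_mod_cast t.den_ne_zero
    have key2 : e * (t.num ^ 2 + (t.den : ℤ) ^ 2) = 2 * A * (t.num * t.den) := by
      have h3 : (e : ℚ) * ((t.num : ℚ) ^ 2 + (t.den : ℚ) ^ 2) = 2 * A * (t.num * t.den) := by
        have h4 : t = t.num / t.den := (Rat.num_div_den t).symm
        rw [h4] at key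
        field_simp at key
        linear_combination key
      exact_mod_cast h3
    have hcop : IsCoprime (t.num * (t.den : ℤ)) (t.num ^ 2 + (t.den : ℤ) ^ 2) := by
      have h0 : IsCoprime t.num (t.den : ℤ) := by
        rw [Int.isCoprime_iff_gcd_eq_one]
        exact t.reduced
      have h5 : IsCoprime t.num (t.num ^ 2 + (t.den : ℤ) ^ 2) := by
        have : IsCoprime t.num ((t.den : ℤ) ^ 2 + t.num * t.num) :=
          (IsCoprime.pow_right h0).add_mul_left_right t.num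
        rwa [show (t.den : ℤ) ^ 2 + t.num * t.num = t.num ^ 2 + (t.den : ℤ) ^ 2 by ring] at this
      have h6 : IsCoprime (t.den : ℤ) (t.num ^ 2 + (t.den : ℤ) ^ 2) := by
        have : IsCoprime (t.den : ℤ) (t.num ^ 2 + (t.den : ℤ) * (t.den : ℤ)) :=
          (IsCoprime.pow_right h0.symm).add_mul_left_right (t.den : ℤ)
        rwa [show t.num ^ 2 + (t.den : ℤ) * (t.den : ℤ) = t.num ^ 2 + (t.den : ℤ) ^ 2 by ring]
          at this
      exact h5.mul_left h6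
    have hdvd : t.num * (t.den : ℤ) ∣ e := by
      apply hcop.dvd_of_dvd_mul_right
      exact ⟨2 * A, by linear_combination key2⟩
    exact Nat.le_of_dvd (Int.natAbs_pos.mpr he) (Int.natAbs_dvd_natAbs.mpr hdvd)

open Fermat.Agent.S51Lib.DescentQuad in
/-- There is no nontrivial quadruple (Fermat descent). -/
theorem no_quad_aux : ∀ n : ℕ, ∀ p q r s : ℤ, (p * q).natAbs = n → p ≠ 0 → q ≠ 0 →
    IsCoprime p q → IsCoprime r s → r * s = 9 * (p * q) → r ^ 2 + s ^ 2 = p ^ 2 + q ^ 2 →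
    False := by
  intro n
  induction n using Nat.strong_induction_on with
  | _ n ih =>
    intro p q r s hn hp hq hpq hrs h1 h2
    -- `9 ∣ r` or `9 ∣ s`
    have h9 : (9 : ℤ) ∣ r ∨ (9 : ℤ) ∣ s := by
      have h3 : (3 : ℤ) ∣ r * s := ⟨3 * (p * q), by linear_combination h1⟩
      have h9rs : ((3 : ℤ) ^ 2) ∣ r * s := ⟨p * q, by linear_combination h1⟩
      have hp3 : Prime (3 : ℤ) := Int.prime_three
      rcases hp3.dvd_or_dvd h3 with h | h
      · left
        have hc : IsCoprime ((3 : ℤ) ^ 2) s := by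
          apply IsCoprime.pow_left
          exact (hrs.of_isCoprime_of_dvd_left h)
        have := hc.dvd_of_dvd_mul_right h9rs
        simpa using this
      · right
        have hc : IsCoprime ((3 : ℤ) ^ 2) r := by
          apply IsCoprime.pow_left
          exact (hrs.symm.of_isCoprime_of_dvd_left h)
        have := hc.dvd_of_dvd_mul_left h9rs
        simpa using this
    obtain ⟨A, e, B, C, he, hB, hC, hlt⟩ : ∃ A e B C : ℤ, e ≠ 0 ∧ A ^ 2 - e ^ 2 = B ^ 2 ∧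
        A ^ 2 - 81 * e ^ 2 = C ^ 2 ∧ e.natAbs < (p * q).natAbs := by
      rcases h9 with h9 | h9
      · exact step p q r s hp hq hpq h1 h2 h9
      · exact step p q s r hp hq hpq (by linarith) (by linarith) h9
    obtain ⟨t, w, ht0, hC', hle⟩ := rat_of_ABC A e B C he hB hC
    obtain ⟨g1, g2⟩ := quad_of_rat t w ht0 hC'
    have hw0 : w ≠ 0 := by
      rintro rfl
      apply ht0
      have : 9 * t = 0 := by linarith
      linarith
    refine ih ((t.den : ℤ) * t.num).natAbs ?_ (t.den : ℤ) t.num (w.den : ℤ) w.num rfl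
      (by exact_mod_cast t.den_ne_zero) (Rat.num_ne_zero.mpr ht0) ?_ ?_ (by linarith) g2
    · rw [mul_comm]
      omega
    · rw [Int.isCoprime_iff_gcd_eq_one, Int.gcd_comm]
      exact t.reduced
    · rw [Int.isCoprime_iff_gcd_eq_one, Int.gcd_comm]
      exact w.reduced

open Fermat.Agent.S51Lib.DescentQuad in
/-- The curve `9 t (1 + w²) = w (1 + t²)` has no rational point with `t ≠ 0`. -/
theorem C_trivial (t w : ℚ) (h : 9 * t * (1 + w ^ 2) = w * (1 + t ^ 2)) : t = 0 := by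
  by_contra ht0
  obtain ⟨g1, g2⟩ := quad_of_rat t w ht0 h
  refine no_quad_aux _ (t.den : ℤ) t.num (w.den : ℤ) w.num rfl
    (by exact_mod_cast t.den_ne_zero) (Rat.num_ne_zero.mpr ht0) ?_ ?_ (by linarith) g2
  · rw [Int.isCoprime_iff_gcd_eq_one, Int.gcd_comm]
    exact t.reduced
  · rw [Int.isCoprime_iff_gcd_eq_one, Int.gcd_comm]
    exact w.reduced

/-- The elliptic curve `v² = u (u - 1) (u - 81)` (15a2) has only its 2-torsion points. -/
theorem E3_points (u v : ℚ) (h : v ^ 2 = u * (u - 1) * (u - 81)) : v = 0 := by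
  by_contra hv
  have hu1 : u - 1 ≠ 0 := by
    intro h0
    rw [h0] at h
    apply hv
    simpa using h
  have hu81 : u - 81 ≠ 0 := by
    intro h0
    rw [h0] at h
    apply hv
    simpa using h
  have hC : 9 * (v / (u - 81)) * (1 + (v / (9 * (u - 1))) ^ 2)
      = (v / (9 * (u - 1))) * (1 + (v / (u - 81)) ^ 2) := by
    field_simp
    linear_combination (-80 : ℚ) * h
  have := C_trivial _ _ hC
  rcases div_eq_zero_iff.mp this with h0 | h0
  · exact hv h0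
  · exact hu81 h0

end Fermat.Agent.S51Lib.DescentCore
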