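import Mathlib

/-!
S51, part E: the four `j`-invariants of the non-cuspidal rational points of `X₀(15)`
(`w ∈ {-10, -40, -25/2, -25/8}`) are not `j`-invariants of semistable models:
`c₄³ w = Δ (w²+10w+5)³` forces `5 ∣ c₄` and `5 ∣ Δ`.
-/

set_option autoImplicit false

namespace Fermat.Agent.S51Lib.Semistable

theorem five_dvd_of_pow (c : ℤ) (h : (5 : ℤ) ∣ c ^ 3) : (5 : ℤ) ∣ c :=
  Int.Prime.dvd_pow' (by norm_num : Nat.Prime 5) (by exact_mod_cast h)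

theorem five_dvd (c4 D : ℤ) (w : ℚ)
    (hw : w = -10 ∨ w = -40 ∨ w = -25 / 2 ∨ w = -25 / 8)
    (h : (c4 : ℚ) ^ 3 * w = D * (w ^ 2 + 10 * w + 5) ^ 3) : (5 : ℤ) ∣ D ∧ (5 : ℤ) ∣ c4 := by
  rcases hw with rfl | rfl | rfl | rfl
  · -- w = -10 : -2 c4³ = 25 D
    have hq : (-2 : ℚ) * (c4 : ℚ) ^ 3 = 25 * D := by linear_combination (1 / 5 : ℚ) * h
    have hz : -2 * c4 ^ 3 = 25 * D := by exact_mod_cast hq
    have h5 : (5 : ℤ) ∣ c4 :=
      five_dvd_of_pow c4 ⟨10 * D + c4 ^ 3, by linear_combination (2 : ℤ) * hz⟩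
    refine ⟨?_, h5⟩
    obtain ⟨c, rfl⟩ := h5
    have h2 : D = -10 * c ^ 3 := by linarith
    exact ⟨-2 * c ^ 3, by linear_combination (1 : ℤ) * h2⟩
  · -- w = -40 : -8 c4³ = 25 * 241³ D
    have hq : (-8 : ℚ) * (c4 : ℚ) ^ 3 = 349938025 * D := by linear_combination (1 / 5 : ℚ) * h
    have hz : -8 * c4 ^ 3 = 349938025 * D := by exact_mod_cast hq
    have h5 : (5 : ℤ) ∣ c4 :=
      five_dvd_of_pow c4 ⟨-139975210 * D - 3 * c4 ^ 3, by linear_combination (-2 : ℤ) * hz⟩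
    refine ⟨?_, h5⟩
    obtain ⟨c, rfl⟩ := h5
    have h2 : -40 * c ^ 3 = 13997521 * D := by linarith
    exact ⟨-8 * c ^ 3 - 2799504 * D, by linear_combination (-1 : ℤ) * h2⟩
  · -- w = -25/2 : -32 c4³ = 5 * 29³ D
    have hq : (-32 : ℚ) * (c4 : ℚ) ^ 3 = 121945 * D := by linear_combination (64 / 25 : ℚ) * h
    have hz : -32 * c4 ^ 3 = 121945 * D := by exact_mod_cast hq
    have h5 : (5 : ℤ) ∣ c4 :=
      five_dvd_of_pow c4 ⟨48778 * D + 13 * c4 ^ 3, by linear_combination (2 : ℤ) * hz⟩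
    refine ⟨?_, h5⟩
    obtain ⟨c, rfl⟩ := h5
    have h2 : -800 * c ^ 3 = 24389 * D := by linarith
    exact ⟨4878 * D + 160 * c ^ 3, by linear_combination (1 : ℤ) * h2⟩
  · -- w = -25/8 : 32768 c4³ = 5 * 211³ D
    have hq : (32768 : ℚ) * (c4 : ℚ) ^ 3 = 46969655 * D := by
      linear_combination (-262144 / 25 : ℚ) * h
    have hz : 32768 * c4 ^ 3 = 46969655 * D := by exact_mod_cast hq
    have h5 : (5 : ℤ) ∣ c4 :=
      five_dvd_of_pow c4 ⟨18787862 * D - 13107 * c4 ^ 3, by linear_combination (2 : ℤ) * hz⟩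
    refine ⟨?_, h5⟩
    obtain ⟨c, rfl⟩ := h5
    have h2 : 819200 * c ^ 3 = 9393931 * D := by linarith
    exact ⟨163840 * c ^ 3 - 1878786 * D, by linear_combination (-1 : ℤ) * h2⟩

end Fermat.Agent.S51Lib.Semistable
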